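import Mathlib

set_option autoImplicit false

namespace Fermat.Agent.IntStr

open PowerSeries

/-- power series with coefficients in a subring -/
def PSub (A : Subring ℂ) : Subring (PowerSeries ℂ) where
  carrier := {F | ∀ n, coeff n F ∈ A}
  mul_mem' := by
    intro F G hF hG n
    rw [coeff_mul]
    exact A.sum_mem fun p _ ↦ A.mul_mem (hF _) (hG _)
  one_mem' := by
    intro n
    rw [coeff_one]
    split_ifs
    · exact A.one_mem
    · exact A.zero_mem
  add_mem' := by
    intro F G hF hG n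
    rw [map_add]
    exact A.add_mem (hF n) (hG n)
  zero_mem' := by
    intro n
    rw [map_zero]
    exact A.zero_mem
  neg_mem' := by
    intro F hF n
    rw [map_neg]
    exact A.neg_mem (hF n)

theorem mem_PSub {A : Subring ℂ} {F : PowerSeries ℂ} : F ∈ PSub A ↔ ∀ n, coeff n F ∈ A :=
  Iff.rfl

theorem PSub_mono {A B : Subring ℂ} (h : A ≤ B) : PSub A ≤ PSub B := fun _ hF n ↦ h (hF n)

/-- division in `A[[q]]` -/
theorem mem_PSub_of_mul {A : Subring ℂ} {F G H : PowerSeries ℂ} (hF : F ∈ PSub A)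
    (hG : G ∈ PSub A) (hc : ∃ c ∈ A, c * coeff 0 F = 1) (h : H * F = G) : H ∈ PSub A := by
  obtain ⟨c, hcA, hc⟩ := hc
  intro n
  induction n using Nat.strong_induction_on with
  | _ n ih =>
    have h1 := congrArg (coeff n) h
    rw [coeff_mul, Finset.Nat.sum_antidiagonal_eq_sum_range_succ_mk, Finset.sum_range_succ] at h1
    simp only [Nat.sub_self] at h1
    have h2 : coeff n H = c * (coeff n G - ∑ k ∈ Finset.range n, coeff k H * coeff (n - k) F) := by
      rw [← h1]
      linear_combination (-coeff n H) * hc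
    rw [h2]
    refine A.mul_mem hcA (A.sub_mem (hG n) (A.sum_mem fun k hk ↦ A.mul_mem (ih k ?_) (hF _)))
    exact Finset.mem_range.mp hk

theorem mem_PSub_of_X_pow_mul {A : Subring ℂ} {H : PowerSeries ℂ} {e : ℕ}
    (h : H * X ^ e ∈ PSub A) : H ∈ PSub A := by
  intro n
  have := h (n + e)
  rwa [coeff_mul_X_pow] at this

/-- the subring `ℤ` of `ℂ` -/
def intC : Subring ℂ := (Int.castRingHom ℂ).range

theorem mem_intC {x : ℂ} : x ∈ intC ↔ ∃ m : ℤ, (m : ℂ) = x := by
  simp [intC]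

theorem intCast_mem_intC (m : ℤ) : (m : ℂ) ∈ intC := mem_intC.mpr ⟨m, rfl⟩

/-- the subring of algebraic integers of `ℂ` -/
def algC : Subring ℂ := (integralClosure ℤ ℂ).toSubring

theorem mem_algC {x : ℂ} : x ∈ algC ↔ IsIntegral ℤ x := Iff.rfl

theorem intC_le_algC : intC ≤ algC := by
  intro x hx
  obtain ⟨m, rfl⟩ := mem_intC.mp hx
  exact isIntegral_algebraMap (R := ℤ) (x := m)

theorem mem_intC_of_mem_algC {x : ℂ} (hx : x ∈ algC) {r : ℚ} (hr : (r : ℂ) = x) : x ∈ intC := by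
  rw [mem_algC, ← hr] at hx
  have h1 : IsIntegral ℤ r := by
    have : (r : ℂ) = algebraMap ℚ ℂ r := rfl
    rw [this] at hx
    exact (isIntegral_algebraMap_iff (algebraMap ℚ ℂ).injective).mp hx
  obtain ⟨m, hm⟩ := IsIntegrallyClosed.isIntegral_iff.mp h1
  rw [← hr, mem_intC]
  refine ⟨m, ?_⟩
  rw [← hm]
  simp

/-- a `σ`-twist of a power series -/
noncomputable def sig (σ : ℂ ≃+* ℂ) : PowerSeries ℂ →+* PowerSeries ℂ :=
  PowerSeries.map (σ : ℂ →+* ℂ)

theorem coeff_sig (σ : ℂ ≃+* ℂ) (F : PowerSeries ℂ) (n : ℕ) :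
    coeff n (sig σ F) = σ (coeff n F) := by
  simp [sig]

theorem sig_of_mem_intC (σ : ℂ ≃+* ℂ) {F : PowerSeries ℂ} (hF : F ∈ PSub intC) :
    sig σ F = F := by
  ext n
  rw [coeff_sig]
  obtain ⟨m, hm⟩ := mem_intC.mp (hF n)
  rw [← hm]
  simp

end Fermat.Agent.IntStr
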