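import Mathlib
import Fermat.Prelude.Thm_UpperHalfPlane_qExpansion_coeff_nat_mul

set_option autoImplicit false

namespace Fermat.Agent.IntStr

open UpperHalfPlane Function
open scoped Manifold Topology

noncomputable section

/-- The algebra of `h`-periodic holomorphic functions on `ℍ` bounded at `i∞`. -/
def QR (h : ℝ) : Subalgebra ℂ (ℍ → ℂ) where
  carrier := {f | Periodic (f ∘ ofComplex) h ∧ MDiff f ∧ IsBoundedAtImInfty f}
  mul_mem' := by
    rintro f g ⟨hf, hf', hf''⟩ ⟨hg, hg', hg''⟩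
    exact ⟨hf.mul hg, hf'.mul hg', hf''.mul hg''⟩
  add_mem' := by
    rintro f g ⟨hf, hf', hf''⟩ ⟨hg, hg', hg''⟩
    exact ⟨hf.add hg, hf'.add hg', hf''.add hg''⟩
  algebraMap_mem' := by
    intro r
    refine ⟨fun z ↦ rfl, ?_, ?_⟩
    · exact mdifferentiable_const
    · exact Filter.const_boundedAtFilter _ _

theorem mem_QR {h : ℝ} {f : ℍ → ℂ} :
    f ∈ QR h ↔ Periodic (f ∘ ofComplex) h ∧ MDiff f ∧ IsBoundedAtImInfty f := Iff.rfl

theorem QR.analyticAt {h : ℝ} (hh : 0 < h) {f : ℍ → ℂ} (hf : f ∈ QR h) :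
    AnalyticAt ℂ (cuspFunction h f) 0 :=
  analyticAt_cuspFunction_zero hh hf.1 hf.2.1 hf.2.2

/-- The `q`-expansion homomorphism. -/
def qHom (h : ℝ) (hh : 0 < h) : QR h →ₐ[ℂ] PowerSeries ℂ where
  toFun f := qExpansion h (f : ℍ → ℂ)
  map_one' := qExpansion_one h
  map_mul' f g := qExpansion_mul (QR.analyticAt hh f.2) (QR.analyticAt hh g.2)
  map_zero' := qExpansion_zero h
  map_add' f g := qExpansion_add (QR.analyticAt hh f.2) (QR.analyticAt hh g.2)
  commutes' r := by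
    have h1 : ((algebraMap ℂ (QR h) r : QR h) : ℍ → ℂ) = r • (1 : ℍ → ℂ) := by
      ext z; simp [Algebra.algebraMap_eq_smul_one]
    rw [h1, qExpansion_smul (QR.analyticAt hh (one_mem _)), qExpansion_one]
    rw [Algebra.algebraMap_eq_smul_one]

@[simp] theorem qHom_apply {h : ℝ} (hh : 0 < h) (f : QR h) :
    qHom h hh f = qExpansion h (f : ℍ → ℂ) := rfl

theorem qHom_injective {h : ℝ} (hh : 0 < h) : Injective (qHom h hh) := by
  rw [injective_iff_map_eq_zero]
  intro f hf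
  exact Subtype.ext ((qExpansion_eq_zero_iff hh f.2.1 f.2.2.1 f.2.2.2).mp hf)

theorem eq_of_qExpansion_eq {h : ℝ} (hh : 0 < h) {f g : ℍ → ℂ} (hf : f ∈ QR h) (hg : g ∈ QR h)
    (hfg : qExpansion h f = qExpansion h g) : f = g := by
  have := @qHom_injective h hh ⟨f, hf⟩ ⟨g, hg⟩ hfg
  exact congrArg Subtype.val this

instance (h : ℝ) [Fact (0 < h)] : IsDomain (QR h) :=
  (qHom_injective (Fact.out : 0 < h)).isDomain (qHom h Fact.out).toRingHom

theorem QR_nat_mul {f : ℍ → ℂ} (hf : f ∈ QR 1) (N : ℕ) : f ∈ QR N := by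
  refine ⟨?_, hf.2.1, hf.2.2⟩
  have := hf.1.nat_mul N
  simpa using this

theorem coeff_nat {f : ℍ → ℂ} (hf : f ∈ QR 1) {N : ℕ} (hN : 0 < N) (n : ℕ) :
    (qExpansion N f).coeff n = if N ∣ n then (qExpansion 1 f).coeff (n / N) else 0 := by
  have := UpperHalfPlane.qExpansion_coeff_nat_mul one_pos hf.1 hf.2.1 hf.2.2 hN n
  rwa [mul_one] at this

end

end Fermat.Agent.IntStr
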