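import Mathlib
import Fermat.Agent.IntStr.QR
import Fermat.Agent.IntStr.PSub

set_option autoImplicit false

namespace Fermat.Agent.IntStr

open UpperHalfPlane Function ModularForm PowerSeries
open scoped Manifold Topology MatrixGroups ModularForm

noncomputable section

/-- level one modular forms, unbundled -/
structure IsM1 (k : ℤ) (f : ℍ → ℂ) : Prop where
  slash : ∀ γ : SL(2, ℤ), f ∣[k] γ = f
  holo : MDiff f
  bdd : IsBoundedAtImInfty f

/-- level one cusp forms, unbundled -/
structure IsS1 (k : ℤ) (f : ℍ → ℂ) : Prop where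
  slash : ∀ γ : SL(2, ℤ), f ∣[k] γ = f
  holo : MDiff f
  zero : IsZeroAtImInfty f

theorem IsS1.isM1 {k : ℤ} {f : ℍ → ℂ} (h : IsS1 k f) : IsM1 k f :=
  ⟨h.slash, h.holo, h.zero.boundedAtFilter⟩

/-- bundling -/
def IsM1.form {k : ℤ} {f : ℍ → ℂ} (h : IsM1 k f) : ModularForm 𝒮ℒ k where
  toFun := f
  slash_action_eq' := by
    rintro _ ⟨γ, rfl⟩
    exact h.slash γ
  holo' := h.holo
  bdd_at_cusps' hc := by
    rw [Subgroup.IsArithmetic.isCusp_iff_isCusp_SL2Z] at hc
    rw [OnePoint.isBoundedAt_iff_forall_SL2Z hc]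
    intro γ _
    rw [h.slash]
    exact h.bdd

@[simp] theorem IsM1.coe_form {k : ℤ} {f : ℍ → ℂ} (h : IsM1 k f) : ⇑h.form = f := rfl

/-- bundling -/
def IsS1.form {k : ℤ} {f : ℍ → ℂ} (h : IsS1 k f) : CuspForm 𝒮ℒ k where
  toFun := f
  slash_action_eq' := by
    rintro _ ⟨γ, rfl⟩
    exact h.slash γ
  holo' := h.holo
  zero_at_cusps' hc := by
    rw [Subgroup.IsArithmetic.isCusp_iff_isCusp_SL2Z] at hc
    rw [OnePoint.isZeroAt_iff_forall_SL2Z hc]
    intro γ _
    change IsZeroAtImInfty (f ∣[k] γ)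
    rw [h.slash]
    exact h.zero

@[simp] theorem IsS1.coe_form {k : ℤ} {f : ℍ → ℂ} (h : IsS1 k f) : ⇑h.form = f := rfl

theorem isM1_coe {k : ℤ} {F : Type*} [FunLike F ℍ ℂ] [ModularFormClass F 𝒮ℒ k] (f : F) :
    IsM1 k f where
  slash γ := SlashInvariantFormClass.slash_action_eq f _ ⟨γ, rfl⟩
  holo := ModularFormClass.holo f
  bdd := ModularFormClass.bdd_at_infty f

theorem isS1_coe {k : ℤ} (f : CuspForm 𝒮ℒ k) : IsS1 k f where
  slash γ := SlashInvariantFormClass.slash_action_eq f _ ⟨γ, rfl⟩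
  holo := CuspFormClass.holo f
  zero := CuspFormClass.zero_at_infty f

theorem IsM1.mem_QR {k : ℤ} {f : ℍ → ℂ} (h : IsM1 k f) : f ∈ QR 1 :=
  ⟨SlashInvariantFormClass.periodic_comp_ofComplex h.form one_mem_strictPeriods_SL, h.holo, h.bdd⟩

theorem isM1_zero (k : ℤ) : IsM1 k 0 := isM1_coe (0 : ModularForm 𝒮ℒ k)
theorem isS1_zero (k : ℤ) : IsS1 k 0 := isS1_coe (0 : CuspForm 𝒮ℒ k)

theorem IsM1.add {k : ℤ} {f g : ℍ → ℂ} (hf : IsM1 k f) (hg : IsM1 k g) : IsM1 k (f + g) :=
  isM1_coe (hf.form + hg.form)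

theorem IsM1.sub {k : ℤ} {f g : ℍ → ℂ} (hf : IsM1 k f) (hg : IsM1 k g) : IsM1 k (f - g) :=
  isM1_coe (hf.form - hg.form)

theorem IsM1.smul {k : ℤ} {f : ℍ → ℂ} (hf : IsM1 k f) (c : ℂ) : IsM1 k (c • f) :=
  isM1_coe (c • hf.form)

theorem IsS1.add {k : ℤ} {f g : ℍ → ℂ} (hf : IsS1 k f) (hg : IsS1 k g) : IsS1 k (f + g) :=
  isS1_coe (hf.form + hg.form)

theorem IsS1.smul {k : ℤ} {f : ℍ → ℂ} (hf : IsS1 k f) (c : ℂ) : IsS1 k (c • f) :=
  isS1_coe (c • hf.form)

theorem IsS1.sum {k : ℤ} {ι : Type*} (s : Finset ι) {f : ι → ℍ → ℂ}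
    (hf : ∀ i ∈ s, IsS1 k (f i)) : IsS1 k (∑ i ∈ s, f i) := by
  classical
  induction s using Finset.induction_on with
  | empty => simpa using isS1_zero k
  | insert i s hi ih =>
    rw [Finset.sum_insert hi]
    exact (hf i (Finset.mem_insert_self _ _)).add (ih fun j hj ↦ hf j (Finset.mem_insert_of_mem hj))

theorem IsM1.sum {k : ℤ} {ι : Type*} (s : Finset ι) {f : ι → ℍ → ℂ}
    (hf : ∀ i ∈ s, IsM1 k (f i)) : IsM1 k (∑ i ∈ s, f i) := by
  classical
  induction s using Finset.induction_on with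
  | empty => simpa using isM1_zero k
  | insert i s hi ih =>
    rw [Finset.sum_insert hi]
    exact (hf i (Finset.mem_insert_self _ _)).add (ih fun j hj ↦ hf j (Finset.mem_insert_of_mem hj))

/-! ### The discriminant has an integral `q`-expansion -/

local notation "Δ" => ModularForm.discriminant

theorem isS1_discriminant : IsS1 12 Δ := isS1_coe CuspForm.discriminant

open ArithmeticFunction in
theorem twelve_dvd_sigma (n : ℕ) : ∃ m : ℤ, 5 * (sigma 3 n : ℤ) + 7 * (sigma 5 n : ℤ) = 12 * m := by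
  have h : (12 : ℤ) ∣ 5 * (sigma 3 n : ℤ) + 7 * (sigma 5 n : ℤ) := by
    rw [sigma_apply, sigma_apply]
    push_cast
    rw [Finset.mul_sum, Finset.mul_sum, ← Finset.sum_add_distrib]
    refine Finset.dvd_sum fun d _ ↦ ?_
    have h1 : ∀ x : ZMod 12, 5 * x ^ 3 + 7 * x ^ 5 = 0 := by decide
    have h2 := (ZMod.intCast_zmod_eq_zero_iff_dvd (5 * (d : ℤ) ^ 3 + 7 * (d : ℤ) ^ 5) 12).mp
      (by push_cast; exact h1 _)
    exact h2
  exact h

open ArithmeticFunction EisensteinSeries in
theorem qExpansion_discriminant_mem : qExpansion 1 Δ ∈ PSub intC := by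
  have hE4 := (isM1_coe E₄).mem_QR
  have hE6 := (isM1_coe E₆).mem_QR
  have hD := isS1_discriminant.isM1.mem_QR
  set A : PowerSeries ℂ := PowerSeries.mk fun n ↦ (sigma 3 n : ℂ) with hA
  set B : PowerSeries ℂ := PowerSeries.mk fun n ↦ (sigma 5 n : ℂ) with hB
  have h4 : qExpansion 1 E₄ = 1 + 240 • A := by
    ext n
    rw [E_qExpansion_coeff _ ⟨2, rfl⟩, map_add, coeff_one, map_nsmul, hA, coeff_mk,
      show bernoulli 4 = -1 / 30 by decide +kernel]
    split_ifs with h
    · subst h; simp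
    · norm_num
  have h6 : qExpansion 1 E₆ = 1 - 504 • B := by
    ext n
    rw [E_qExpansion_coeff _ ⟨3, rfl⟩, map_sub, coeff_one, map_nsmul, hB, coeff_mk,
      show bernoulli 6 = 1 / 42 by decide +kernel]
    split_ifs with h
    · subst h; simp
    · norm_num
  have hrel : (1728 : ℕ) • qExpansion 1 Δ = qExpansion 1 E₄ ^ 3 - qExpansion 1 E₆ ^ 2 := by
    have h0 : (1728 : ℕ) • (⟨Δ, hD⟩ : QR 1) = ⟨⇑E₄, hE4⟩ ^ 3 - ⟨⇑E₆, hE6⟩ ^ 2 := by
      ext z
      have := discriminant_eq_E₄_cube_sub_E₆_sq z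
      simp only [nsmul_eq_mul, Nat.cast_ofNat]
      change (1728 : ℂ) * Δ z = E₄ z ^ 3 - E₆ z ^ 2
      rw [this]
      ring
    have := congrArg (qHom 1 one_pos) h0
    simpa only [map_nsmul, map_sub, map_pow, qHom_apply] using this
  have hC : ∃ C : PowerSeries ℂ, C ∈ PSub intC ∧ 5 • A + 7 • B = 12 • C := by
    choose m hm using twelve_dvd_sigma
    refine ⟨PowerSeries.mk fun n ↦ (m n : ℂ), fun n ↦ ?_, ?_⟩
    · rw [coeff_mk]; exact intCast_mem_intC _
    · ext n
      have := congrArg (fun x : ℤ ↦ (x : ℂ)) (hm n)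
      simp only [map_add, map_nsmul, hA, hB, coeff_mk]
      push_cast at this
      simpa using this
  obtain ⟨C, hC, hABC⟩ := hC
  have hAm : A ∈ PSub intC := fun n ↦ by
    rw [hA, coeff_mk]; exact_mod_cast intCast_mem_intC (sigma 3 n)
  have hBm : B ∈ PSub intC := fun n ↦ by
    rw [hB, coeff_mk]; exact_mod_cast intCast_mem_intC (sigma 5 n)
  have hfin : qExpansion 1 Δ = C + 100 • A ^ 2 - 147 • B ^ 2 + 8000 • A ^ 3 := by
    have h12 : (1728 : PowerSeries ℂ) ≠ 0 := by
      have : (1728 : PowerSeries ℂ) = PowerSeries.C (1728 : ℂ) := (map_ofNat PowerSeries.C 1728).symm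
      rw [this]
      intro h0
      have := congrArg (coeff 0) h0
      simp at this
    apply mul_left_cancel₀ h12
    rw [h4, h6] at hrel
    simp only [nsmul_eq_mul, Nat.cast_ofNat] at hrel hABC ⊢
    linear_combination hrel + 144 * hABC
  rw [hfin]
  refine Subring.add_mem _ (Subring.sub_mem _ (Subring.add_mem _ hC ?_) ?_) ?_
  · exact nsmul_mem (Subring.pow_mem _ hAm 2) _
  · exact nsmul_mem (Subring.pow_mem _ hBm 2) _
  · exact nsmul_mem (Subring.pow_mem _ hAm 3) _

/-! ### Spanning by integral forms in level one -/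

/-- integral level one modular forms -/
def M1Z (k : ℤ) : Set (ℍ → ℂ) := {b | IsM1 k b ∧ qExpansion 1 b ∈ PSub intC}

/-- integral level one cusp forms -/
def S1Z (k : ℤ) : Set (ℍ → ℂ) := {b | IsS1 k b ∧ qExpansion 1 b ∈ PSub intC}

theorem mul_discriminant_mem {k : ℤ} {b : ℍ → ℂ} (hb : b ∈ M1Z (k - 12)) : Δ * b ∈ S1Z k := by
  obtain ⟨hb1, hb2⟩ := hb
  have hD := isS1_discriminant.isM1.mem_QR
  have h := (isS1_coe (CuspForm.ofMulDiscriminant hb1.form))
  have h' : ((CuspForm.ofMulDiscriminant hb1.form : CuspForm 𝒮ℒ k) : ℍ → ℂ) = Δ * b := by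
    ext z; simp
  rw [h'] at h
  refine ⟨h, ?_⟩
  have := map_mul (qHom 1 one_pos) ⟨Δ, hD⟩ ⟨b, hb1.mem_QR⟩
  simp only [qHom_apply] at this
  change qExpansion 1 (Δ * b) ∈ PSub intC
  rw [show qExpansion 1 (Δ * b) = _ from this]
  exact Subring.mul_mem _ qExpansion_discriminant_mem hb2

theorem S1_mem_span_of {k : ℤ} (h : ∀ f, IsM1 (k - 12) f → f ∈ Submodule.span ℂ (M1Z (k - 12)))
    {f : ℍ → ℂ} (hf : IsS1 k f) : f ∈ Submodule.span ℂ (S1Z k) := by
  set g := CuspForm.discriminantEquiv hf.form with hg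
  have hfg : f = Δ * ⇑g := (discriminant_mul_discriminantEquiv hf.form).symm
  have h1 := h g (isM1_coe g)
  rw [hfg]
  clear hfg
  generalize (⇑g : ℍ → ℂ) = g' at h1
  induction h1 using Submodule.span_induction with
  | mem x hx => exact Submodule.subset_span (mul_discriminant_mem hx)
  | zero => rw [mul_zero]; exact Submodule.zero_mem _
  | add x y _ _ hx hy => rw [mul_add]; exact Submodule.add_mem _ hx hy
  | smul c x _ hx => rw [mul_smul_comm]; exact Submodule.smul_mem _ _ hx

theorem S1Z_subset (k : ℤ) : S1Z k ⊆ M1Z k := fun _ h ↦ ⟨h.1.isM1, h.2⟩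

theorem M1_mem_span (k : ℤ) : ∀ f, IsM1 k f → f ∈ Submodule.span ℂ (M1Z k) := by
  induction hn : k.toNat using Nat.strong_induction_on generalizing k with
  | _ n ih =>
    intro f hf
    have hf0 : ∀ (h0 : Module.rank ℂ (ModularForm 𝒮ℒ k) = 0), f ∈ Submodule.span ℂ (M1Z k) := by
      intro h0
      have h1 := rank_zero_iff_forall_zero.mp h0 hf.form
      have : f = 0 := by
        have := congrArg (fun g : ModularForm 𝒮ℒ k ↦ (g : ℍ → ℂ)) h1
        simpa using this
      rw [this]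
      exact Submodule.zero_mem _
    rcases lt_or_ge k 0 with hk | hk
    · exact hf0 (levelOne_neg_weight_rank_zero hk)
    rcases Int.even_or_odd k with he | ho
    swap
    · exact hf0 (levelOne_odd_weight_rank_zero ho)
    lift k to ℕ using hk
    have hkn : k = n := by simpa using hn
    subst hkn
    have he' : Even k := by exact_mod_cast he
    rcases (show k = 0 ∨ k = 2 ∨ 3 ≤ k by
      rcases he' with ⟨r, hr⟩; omega) with rfl | rfl | hk3
    · obtain ⟨c, hc⟩ := ModularFormClass.levelOne_weight_zero_const (F := ModularForm 𝒮ℒ 0)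
        hf.form
      have h2 : f = c • (1 : ℍ → ℂ) := by
        rw [show f = _ from hc]; ext z; simp
      rw [h2]
      refine Submodule.smul_mem _ _ (Submodule.subset_span ⟨?_, ?_⟩)
      · have := isM1_coe (1 : ModularForm 𝒮ℒ 0)
        simpa using this
      · rw [qExpansion_one]
        exact Subring.one_mem _
    · exact hf0 levelOne_weight_two_rank_zero
    · set a := (qExpansion 1 f).coeff 0 with ha
      have hE := isM1_coe (E hk3)
      have hsub : IsM1 k (f - a • ⇑(E hk3)) := hf.sub (hE.smul a)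
      have hS : IsS1 k (f - a • ⇑(E hk3)) := by
        have h1 : (qExpansion 1 hsub.form).coeff 0 = 0 := by
          have := map_sub (qHom 1 one_pos) ⟨f, hf.mem_QR⟩ ⟨a • ⇑(E hk3), (hE.smul a).mem_QR⟩
          simp only [qHom_apply] at this
          change (qExpansion 1 (f - a • ⇑(E hk3))).coeff 0 = 0
          rw [show qExpansion 1 (f - a • ⇑(E hk3)) = _ from this,
            qExpansion_smul (QR.analyticAt one_pos hE.mem_QR), map_sub, PowerSeries.coeff_smul,
            EisensteinSeries.E_qExpansion_coeff_zero hk3 he', ha]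
          simp
        have := isS1_coe (toCuspForm hsub.form h1)
        exact this
      have h3 : f - a • ⇑(E hk3) ∈ Submodule.span ℂ (S1Z k) := by
        refine S1_mem_span_of (fun g hg ↦ ?_) hS
        rcases lt_or_ge k 12 with h12 | h12
        · have h1 := rank_zero_iff_forall_zero.mp
            (levelOne_neg_weight_rank_zero (k := (k : ℤ) - 12) (by omega)) hg.form
          have : g = 0 := by
            have := congrArg (fun g : ModularForm 𝒮ℒ _ ↦ (g : ℍ → ℂ)) h1
            simpa using this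
          rw [this]
          exact Submodule.zero_mem _
        · exact ih (k - 12) (by omega) ((k : ℤ) - 12) (by omega) g hg
      have h4 : ⇑(E hk3) ∈ Submodule.span ℂ (M1Z k) := by
        set β : ℚ := 2 * k / bernoulli k with hβ
        have hM : ((β.den : ℕ) : ℂ) ≠ 0 := by exact_mod_cast β.den_nz
        have h5 : (β.den : ℂ) • ⇑(E hk3) ∈ M1Z k := by
          refine ⟨hE.smul _, fun n ↦ ?_⟩
          rw [qExpansion_smul (QR.analyticAt one_pos hE.mem_QR), PowerSeries.coeff_smul,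
            EisensteinSeries.E_qExpansion_coeff hk3 he']
          split_ifs with h0
          · rw [smul_eq_mul, mul_one]
            exact_mod_cast intCast_mem_intC (β.den)
          · have h6 : (β.den : ℂ) * (2 * k / bernoulli k : ℂ) = (β.num : ℂ) := by
              have := Rat.den_mul_eq_num β
              have := congrArg (fun x : ℚ ↦ (x : ℂ)) this
              push_cast [hβ] at this
              rw [hβ]
              exact_mod_cast this
            rw [smul_eq_mul, ← mul_assoc, mul_neg, h6]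
            exact_mod_cast intCast_mem_intC (-β.num * (ArithmeticFunction.sigma (k - 1) n))
        have h7 : ⇑(E hk3) = (β.den : ℂ)⁻¹ • ((β.den : ℂ) • ⇑(E hk3)) := by
          rw [smul_smul, inv_mul_cancel₀ hM, one_smul]
        rw [h7]
        exact Submodule.smul_mem _ _ (Submodule.subset_span h5)
      have : f = (f - a • ⇑(E hk3)) + a • ⇑(E hk3) := by simp
      rw [this]
      exact Submodule.add_mem _ (Submodule.span_mono (S1Z_subset k) h3)
        (Submodule.smul_mem _ _ h4)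

theorem S1_mem_span (k : ℤ) (f : ℍ → ℂ) (hf : IsS1 k f) : f ∈ Submodule.span ℂ (S1Z k) :=
  S1_mem_span_of (M1_mem_span (k - 12)) hf

end

end Fermat.Agent.IntStr
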