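import Mathlib
import Fermat.Agent.IntStr.LevelOne

set_option autoImplicit false

namespace Fermat.Agent.IntStr

open UpperHalfPlane Function ModularForm PowerSeries
open scoped Manifold Topology MatrixGroups ModularForm

noncomputable section

theorem qExp_add {f g : ℍ → ℂ} (hf : f ∈ QR 1) (hg : g ∈ QR 1) :
    qExpansion 1 (f + g) = qExpansion 1 f + qExpansion 1 g :=
  qExpansion_add (QR.analyticAt one_pos hf) (QR.analyticAt one_pos hg)

theorem qExp_mul {f g : ℍ → ℂ} (hf : f ∈ QR 1) (hg : g ∈ QR 1) :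
    qExpansion 1 (f * g) = qExpansion 1 f * qExpansion 1 g :=
  qExpansion_mul (QR.analyticAt one_pos hf) (QR.analyticAt one_pos hg)

theorem qExp_smul {f : ℍ → ℂ} (hf : f ∈ QR 1) (c : ℂ) :
    qExpansion 1 (c • f) = c • qExpansion 1 f :=
  qExpansion_smul (QR.analyticAt one_pos hf) c

theorem sig_smul (σ : ℂ ≃+* ℂ) (c : ℂ) (F : PowerSeries ℂ) : sig σ (c • F) = σ c • sig σ F := by
  ext n
  simp [coeff_sig]

theorem IsM1.exists_conj (σ : ℂ ≃+* ℂ) {k : ℤ} {f : ℍ → ℂ} (hf : IsM1 k f) :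
    ∃ g, IsM1 k g ∧ qExpansion 1 g = sig σ (qExpansion 1 f) := by
  suffices h : IsM1 k f ∧ ∃ g, IsM1 k g ∧ qExpansion 1 g = sig σ (qExpansion 1 f) from h.2
  have hmem := M1_mem_span k f hf
  clear hf
  induction hmem using Submodule.span_induction with
  | mem x hx => exact ⟨hx.1, x, hx.1, (sig_of_mem_intC σ hx.2).symm⟩
  | zero => exact ⟨isM1_zero k, 0, isM1_zero k, by rw [qExpansion_zero, map_zero]⟩
  | add x y _ _ hx hy =>
    obtain ⟨hx, gx, hgx, hgx'⟩ := hx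
    obtain ⟨hy, gy, hgy, hgy'⟩ := hy
    exact ⟨hx.add hy, gx + gy, hgx.add hgy, by
      rw [qExp_add hgx.mem_QR hgy.mem_QR, qExp_add hx.mem_QR hy.mem_QR, map_add, hgx', hgy']⟩
  | smul c x _ hx =>
    obtain ⟨hx, gx, hgx, hgx'⟩ := hx
    exact ⟨hx.smul c, σ c • gx, hgx.smul _, by
      rw [qExp_smul hgx.mem_QR, qExp_smul hx.mem_QR, sig_smul, hgx']⟩

theorem IsS1.exists_conj (σ : ℂ ≃+* ℂ) {k : ℤ} {f : ℍ → ℂ} (hf : IsS1 k f) :
    ∃ g, IsS1 k g ∧ qExpansion 1 g = sig σ (qExpansion 1 f) := by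
  suffices h : IsS1 k f ∧ ∃ g, IsS1 k g ∧ qExpansion 1 g = sig σ (qExpansion 1 f) from h.2
  have hmem := S1_mem_span k f hf
  clear hf
  induction hmem using Submodule.span_induction with
  | mem x hx => exact ⟨hx.1, x, hx.1, (sig_of_mem_intC σ hx.2).symm⟩
  | zero => exact ⟨isS1_zero k, 0, isS1_zero k, by rw [qExpansion_zero, map_zero]⟩
  | add x y _ _ hx hy =>
    obtain ⟨hx, gx, hgx, hgx'⟩ := hx
    obtain ⟨hy, gy, hgy, hgy'⟩ := hy
    exact ⟨hx.add hy, gx + gy, hgx.add hgy, by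
      rw [qExp_add hgx.isM1.mem_QR hgy.isM1.mem_QR, qExp_add hx.isM1.mem_QR hy.isM1.mem_QR,
        map_add, hgx', hgy']⟩
  | smul c x _ hx =>
    obtain ⟨hx, gx, hgx, hgx'⟩ := hx
    exact ⟨hx.smul c, σ c • gx, hgx.smul _, by
      rw [qExp_smul hgx.isM1.mem_QR, qExp_smul hx.isM1.mem_QR, sig_smul, hgx']⟩

/-! ### Algebras of functions -/

/-- holomorphic functions -/
def HolA : Subalgebra ℂ (ℍ → ℂ) where
  carrier := {f | MDiff f}
  mul_mem' := fun hf hg ↦ MDifferentiable.mul hf hg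
  add_mem' := fun hf hg ↦ MDifferentiable.add hf hg
  algebraMap_mem' := fun _ ↦ mdifferentiable_const

/-- functions bounded at `i∞` -/
def BddA : Subalgebra ℂ (ℍ → ℂ) where
  carrier := {f | IsBoundedAtImInfty f}
  mul_mem' := fun hf hg ↦ Filter.BoundedAtFilter.mul hf hg
  add_mem' := fun hf hg ↦ Filter.BoundedAtFilter.add hf hg
  algebraMap_mem' := fun _ ↦ Filter.const_boundedAtFilter _ _

theorem mem_HolA {f : ℍ → ℂ} : f ∈ HolA ↔ MDiff f := Iff.rfl
theorem mem_BddA {f : ℍ → ℂ} : f ∈ BddA ↔ IsBoundedAtImInfty f := Iff.rfl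

/-! ### Families of conjugates -/

/-- A finite family of functions permuted (with weight `k`) by `SL(2, ℤ)`. -/
structure IsFam {ι : Type*} [Fintype ι] (k : ℤ) (F : ι → ℍ → ℂ) : Prop where
  perm : ∀ γ : SL(2, ℤ), ∃ e : ι ≃ ι, ∀ i, F i ∣[k] γ = F (e i)
  holo : ∀ i, MDiff (F i)
  bdd : ∀ i, IsBoundedAtImInfty (F i)

section cf

variable {ι : Type*} [Fintype ι]

/-- coefficient functions of `∏ (X - F i)` -/
def cf (F : ι → ℍ → ℂ) (m : ℕ) (z : ℍ) : ℂ :=
  (∏ i, (Polynomial.X - Polynomial.C (F i z))).coeff m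

theorem cf_eq (F : ι → ℍ → ℂ) {m : ℕ} (hm : m ≤ Fintype.card ι) :
    cf F m = ∑ t ∈ Finset.univ.powersetCard (Fintype.card ι - m), ∏ i ∈ t, (-F i) := by
  ext z
  have h := Finset.prod_X_add_C_coeff Finset.univ (fun i ↦ - F i z) (k := m) (by simpa using hm)
  simp only [Polynomial.C_neg, ← sub_eq_add_neg, Finset.card_univ] at h
  rw [cf, h]
  simp [Finset.sum_apply, Finset.prod_apply]

theorem cf_card (F : ι → ℍ → ℂ) : cf F (Fintype.card ι) = 1 := by
  ext z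
  rw [cf_eq F le_rfl]
  simp

theorem sum_cf (F : ι → ℍ → ℂ) (z : ℍ) (x : ℂ) :
    ∑ m ∈ Finset.range (Fintype.card ι + 1), cf F m z * x ^ m = ∏ i, (x - F i z) := by
  have h := Polynomial.eval_eq_sum_range' (p := ∏ i, (Polynomial.X - Polynomial.C (F i z)))
    (n := Fintype.card ι + 1) (by simp) x
  rw [Polynomial.eval_prod] at h
  simpa [cf] using h.symm

theorem cf_mem_subring (A : Subring (ℍ → ℂ)) (F : ι → ℍ → ℂ) (hF : ∀ i, F i ∈ A) {m : ℕ}
    (hm : m ≤ Fintype.card ι) : cf F m ∈ A := by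
  rw [cf_eq F hm]
  exact A.sum_mem fun t _ ↦ A.prod_mem fun i _ ↦ neg_mem (hF i)

theorem cf_mem (A : Subalgebra ℂ (ℍ → ℂ)) (F : ι → ℍ → ℂ) (hF : ∀ i, F i ∈ A) {m : ℕ}
    (hm : m ≤ Fintype.card ι) : cf F m ∈ A := cf_mem_subring A.toSubring F hF hm

theorem cf_slash {k : ℤ} {F : ι → ℍ → ℂ} (hF : IsFam k F) {m : ℕ} (hm : m ≤ Fintype.card ι)
    (γ : SL(2, ℤ)) : cf F m ∣[((Fintype.card ι : ℤ) - m) * k] γ = cf F m := by
  obtain ⟨e, he⟩ := hF.perm γ
  ext z
  have h1 : ∀ i, F i (γ • z) = F (e i) z * denom γ z ^ k := by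
    intro i
    rw [← he i, SL_slash_apply, mul_assoc, ← zpow_add₀ (denom_ne_zero γ z)]
    simp
  rw [SL_slash_apply, cf_eq F hm]
  simp only [Finset.sum_apply, Finset.prod_apply, Pi.neg_apply, h1]
  have h2 : ∀ t ∈ Finset.univ.powersetCard (Fintype.card ι - m),
      ∏ i ∈ t, (-(F (e i) z * denom γ z ^ k)) =
        (∏ i ∈ t.map e.toEmbedding, (- F i z)) *
          denom γ z ^ (((Fintype.card ι : ℤ) - m) * k) := by
    intro t ht
    rw [Finset.mem_powersetCard] at ht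
    rw [Finset.prod_map]
    simp only [Equiv.coe_toEmbedding]
    simp_rw [← neg_mul]
    rw [Finset.prod_mul_distrib, Finset.prod_const, ht.2, ← zpow_natCast, ← zpow_mul]
    congr 2
    rw [Nat.cast_sub hm]
    ring
  rw [Finset.sum_congr rfl h2, ← Finset.sum_mul, mul_assoc, ← zpow_add₀ (denom_ne_zero γ z)]
  simp only [add_neg_cancel, zpow_zero, mul_one]
  refine Finset.sum_bij (fun t _ ↦ t.map e.toEmbedding) ?_ ?_ ?_ ?_
  · intro t ht
    rw [Finset.mem_powersetCard] at ht ⊢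
    exact ⟨Finset.subset_univ _, by rw [Finset.card_map]; exact ht.2⟩
  · intro t _ t' _ h
    exact Finset.map_injective _ h
  · intro t ht
    refine ⟨t.map e.symm.toEmbedding, ?_, ?_⟩
    · rw [Finset.mem_powersetCard] at ht ⊢
      exact ⟨Finset.subset_univ _, by rw [Finset.card_map]; exact ht.2⟩
    · rw [Finset.map_map]; ext x; simp
  · intro t _
    rfl

theorem IsFam.isM1_cf {k : ℤ} {F : ι → ℍ → ℂ} (hF : IsFam k F) {m : ℕ}
    (hm : m ≤ Fintype.card ι) : IsM1 (((Fintype.card ι : ℤ) - m) * k) (cf F m) where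
  slash γ := cf_slash hF hm γ
  holo := cf_mem HolA F hF.holo hm
  bdd := cf_mem BddA F hF.bdd hm

theorem IsFam.isS1_cf {k : ℤ} {F : ι → ℍ → ℂ} (hF : IsFam k F)
    (hz : ∀ i, IsZeroAtImInfty (F i)) {m : ℕ}
    (hm : m < Fintype.card ι) : IsS1 (((Fintype.card ι : ℤ) - m) * k) (cf F m) where
  slash γ := cf_slash hF hm.le γ
  holo := cf_mem HolA F hF.holo hm.le
  zero := by
    rw [cf_eq F hm.le, IsZeroAtImInfty, Filter.ZeroAtFilter]
    have : (0 : ℂ) = ∑ t ∈ (Finset.univ : Finset ι).powersetCard (Fintype.card ι - m),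
        ∏ _i ∈ t, (-0 : ℂ) := by
      symm
      refine Finset.sum_eq_zero fun t ht ↦ ?_
      rw [Finset.mem_powersetCard] at ht
      rw [Finset.prod_const, ht.2, neg_zero, zero_pow (by omega)]
    rw [this]
    have h1 : ∀ t ∈ Finset.univ.powersetCard (Fintype.card ι - m),
        Filter.Tendsto (fun z ↦ ∏ i ∈ t, (- F i z)) atImInfty (𝓝 (∏ _i ∈ t, (-0 : ℂ))) :=
      fun t _ ↦ tendsto_finsetProd _ fun i _ ↦ Filter.Tendsto.neg (hz i)
    have h2 := tendsto_finsetSum _ h1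
    refine h2.congr fun z ↦ ?_
    simp [Finset.sum_apply, Finset.prod_apply]

end cf

end

end Fermat.Agent.IntStr
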