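import Mathlib
import Fermat.Agent.IntStr.Family

set_option autoImplicit false

namespace Fermat.Agent.IntStr

open UpperHalfPlane Function ModularForm PowerSeries CongruenceSubgroup
open scoped Manifold Topology MatrixGroups ModularForm

noncomputable section

/-- modular forms for `Γ₀(N)`, unbundled -/
structure IsMN (N : ℕ) (k : ℤ) (f : ℍ → ℂ) : Prop where
  slash : ∀ γ ∈ Gamma0 N, f ∣[k] γ = f
  holo : MDiff f
  bdd : ∀ γ : SL(2, ℤ), IsBoundedAtImInfty (f ∣[k] γ)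

/-- vanishing at all cusps -/
def IsCuspidal (k : ℤ) (f : ℍ → ℂ) : Prop := ∀ γ : SL(2, ℤ), IsZeroAtImInfty (f ∣[k] γ)

variable {N : ℕ} [NeZero N] {k : ℤ} {f : ℍ → ℂ}

/-- bundling -/
def IsMN.form (h : IsMN N k f) : ModularForm (Gamma0 N) k where
  toFun := f
  slash_action_eq' := by
    rintro _ ⟨γ, hγ, rfl⟩
    exact h.slash γ hγ
  holo' := h.holo
  bdd_at_cusps' hc := by
    rw [Subgroup.IsArithmetic.isCusp_iff_isCusp_SL2Z] at hc
    rw [OnePoint.isBoundedAt_iff_forall_SL2Z hc]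
    intro γ _
    exact h.bdd γ

/-- bundling -/
def IsMN.cuspForm (h : IsMN N k f) (h0 : IsCuspidal k f) : CuspForm (Gamma0 N) k where
  toFun := f
  slash_action_eq' := by
    rintro _ ⟨γ, hγ, rfl⟩
    exact h.slash γ hγ
  holo' := h.holo
  zero_at_cusps' hc := by
    rw [Subgroup.IsArithmetic.isCusp_iff_isCusp_SL2Z] at hc
    rw [OnePoint.isZeroAt_iff_forall_SL2Z hc]
    intro γ _
    exact h0 γ

@[simp] theorem IsMN.coe_form (h : IsMN N k f) : ⇑h.form = f := rfl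
@[simp] theorem IsMN.coe_cuspForm (h : IsMN N k f) (h0 : IsCuspidal k f) :
    ⇑(h.cuspForm h0) = f := rfl

theorem isMN_coe {F : Type*} [FunLike F ℍ ℂ] [ModularFormClass F (Gamma0 N) k] (f : F) :
    IsMN N k f where
  slash γ hγ := SlashInvariantFormClass.slash_action_eq f _ ⟨γ, hγ, rfl⟩
  holo := ModularFormClass.holo f
  bdd γ := ModularFormClass.bdd_at_infty_slash f γ

theorem isCuspidal_coe (f : CuspForm (Gamma0 N) k) : IsCuspidal k f :=
  fun γ ↦ CuspFormClass.zero_at_infty_slash f γ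

theorem IsMN.mem_QR (h : IsMN N k f) : f ∈ QR 1 := by
  refine ⟨?_, h.holo, ?_⟩
  · refine SlashInvariantFormClass.periodic_comp_ofComplex h.form ?_
    simp [CongruenceSubgroup.strictPeriods_Gamma0]
  · simpa using h.bdd 1

variable (N) in
/-- the cosets indexing conjugates -/
abbrev Qt : Type := SL(2, ℤ) ⧸ Gamma0 N

instance : Finite (Qt N) := inferInstance
instance : Fintype (Qt N) := Fintype.ofFinite _

variable (N) in
/-- the conjugates of `f` -/
def cj (k : ℤ) (f : ℍ → ℂ) (q : Qt N) : ℍ → ℂ := f ∣[k] (q.out)⁻¹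

omit [NeZero N] in
theorem cj_mk (hf : ∀ γ ∈ Gamma0 N, f ∣[k] γ = f) (g : SL(2, ℤ)) :
    cj N k f (g : Qt N) = f ∣[k] g⁻¹ := by
  obtain ⟨h, hh⟩ := QuotientGroup.mk_out_eq_mul (Gamma0 N) g
  rw [cj, hh, mul_inv_rev, SlashAction.slash_mul, hf _ (inv_mem h.2)]

omit [NeZero N] in
theorem cj_one (hf : ∀ γ ∈ Gamma0 N, f ∣[k] γ = f) :
    cj N k f ((1 : SL(2, ℤ)) : Qt N) = f := by
  rw [cj_mk hf, inv_one, SlashAction.slash_one]

omit [NeZero N] in
theorem cj_slash (hf : ∀ γ ∈ Gamma0 N, f ∣[k] γ = f) (q : Qt N) (γ : SL(2, ℤ)) :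
    cj N k f q ∣[k] γ = cj N k f (γ⁻¹ • q) := by
  induction q using QuotientGroup.induction_on with
  | H g =>
    rw [cj_mk hf, show γ⁻¹ • (g : Qt N) = ((γ⁻¹ * g : SL(2, ℤ)) : Qt N) from rfl, cj_mk hf,
      mul_inv_rev, inv_inv, SlashAction.slash_mul]

theorem IsMN.isFam (h : IsMN N k f) : IsFam k (cj N k f) where
  perm γ := ⟨MulAction.toPerm γ⁻¹, fun q ↦ cj_slash h.slash q γ⟩
  holo _ := MDifferentiable.slash h.holo k _
  bdd _ := h.bdd _

theorem slash_pow (w : ℤ) (g : ℍ → ℂ) (t : ℕ) (γ : SL(2, ℤ)) :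
    (g ^ t) ∣[(t : ℤ) * w] γ = (g ∣[w] γ) ^ t := by
  ext z
  simp only [SL_slash_apply, Pi.pow_apply, mul_pow]
  congr 1
  rw [← zpow_natCast, ← zpow_mul]
  congr 1
  ring

variable (N) in
/-- the trace of `f h ^ t` -/
def tr (k w : ℤ) (f h : ℍ → ℂ) (t : ℕ) : ℍ → ℂ := ∑ q : Qt N, cj N k f q * cj N w h q ^ t

theorem isM1_tr {w : ℤ} {h : ℍ → ℂ} (hf : IsMN N k f) (hh : IsMN N w h) (t : ℕ) :
    IsM1 (k + t * w) (tr N k w f h t) where
  slash γ := by
    rw [tr, SlashAction.sum_slash]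
    have : ∀ q : Qt N, (cj N k f q * cj N w h q ^ t) ∣[k + (t : ℤ) * w] γ =
        cj N k f (γ⁻¹ • q) * cj N w h (γ⁻¹ • q) ^ t := by
      intro q
      rw [mul_slash_SL2, slash_pow, cj_slash hf.slash, cj_slash hh.slash]
    rw [Finset.sum_congr rfl fun q _ ↦ this q]
    exact Equiv.sum_comp (MulAction.toPerm γ⁻¹) fun q ↦ cj N k f q * cj N w h q ^ t
  holo := by
    change _ ∈ HolA
    exact HolA.sum_mem fun q _ ↦ HolA.mul_mem (hf.isFam.holo q) (HolA.pow_mem (hh.isFam.holo q) t)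
  bdd := by
    change _ ∈ BddA
    exact BddA.sum_mem fun q _ ↦ BddA.mul_mem (hf.isFam.bdd q) (BddA.pow_mem (hh.isFam.bdd q) t)

end

end Fermat.Agent.IntStr
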