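import Mathlib
import Fermat.Agent.IntStr.LevelN

set_option autoImplicit false

namespace Fermat.Agent.IntStr

open UpperHalfPlane Function ModularForm PowerSeries CongruenceSubgroup
open scoped Manifold Topology MatrixGroups ModularForm

noncomputable section

local notation "Δ" => ModularForm.discriminant

/-- the affine map `z ↦ (a z + b) / d` on the upper half plane -/
def aff (a d : ℕ) (b : ℤ) (z : ℍ) : ℍ := ofComplex ((a * z + b) / d)

theorem im_aff_pos {a d : ℕ} (ha : 0 < a) (hd : 0 < d) (b : ℤ) {z : ℂ} (hz : 0 < z.im) :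
    0 < (((a : ℂ) * z + b) / d).im := by
  rw [Complex.div_natCast_im]
  simp only [Complex.add_im, Complex.mul_im, Complex.natCast_re, Complex.natCast_im, zero_mul,
    add_zero, Complex.intCast_im]
  positivity

theorem coe_aff {a d : ℕ} (ha : 0 < a) (hd : 0 < d) (b : ℤ) (z : ℍ) :
    (aff a d b z : ℂ) = (a * z + b) / d := by
  rw [aff, ofComplex_apply_of_im_pos (im_aff_pos ha hd b z.im_pos)]

/-- The conjugates of `H`. -/
def Hc (N a d : ℕ) (b : ℤ) (z : ℍ) : ℂ := (d : ℂ) ^ 12 * Δ z ^ N / Δ (aff a d b z)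

/-- the form `Δ(z)^N / Δ(N z)` -/
def HN (N : ℕ) : ℍ → ℂ := Hc N N 1 0

theorem disc_smul (γ : SL(2, ℤ)) (z : ℍ) : Δ (γ • z) = denom γ z ^ (12 : ℤ) * Δ z := by
  have h := congrFun (isS1_discriminant.slash γ) z
  rw [SL_slash_apply] at h
  rw [← h, mul_comm, mul_assoc, ← zpow_add₀ (denom_ne_zero γ z)]
  simp

theorem decomp {N : ℕ} (hN : 0 < N) (γ : SL(2, ℤ)) :
    ∃ (a d : ℕ) (b : ℤ) (δ : SL(2, ℤ)), 0 < a ∧ 0 < d ∧ a * d = N ∧
      (N * γ 0 0 = δ 0 0 * a) ∧ (N * γ 0 1 = δ 0 0 * b + δ 0 1 * d) ∧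
      (γ 1 0 = δ 1 0 * a) ∧ (γ 1 1 = δ 1 0 * b + δ 1 1 * d) := by
  have hdet : γ 0 0 * γ 1 1 - γ 0 1 * γ 1 0 = 1 := by
    have := γ.det_coe
    rwa [Matrix.det_fin_two] at this
  set x : ℤ := N * γ 0 0 with hx
  set y : ℤ := γ 1 0 with hy
  set g : ℕ := Int.gcd x y with hg
  have hbez : (g : ℤ) = x * Int.gcdA x y + y * Int.gcdB x y := Int.gcd_eq_gcd_ab x y
  obtain ⟨A, hA⟩ : (g : ℤ) ∣ x := Int.gcd_dvd_left ..
  obtain ⟨C, hC⟩ : (g : ℤ) ∣ y := Int.gcd_dvd_right ..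
  set u := Int.gcdA x y
  set v := Int.gcdB x y
  have hNdvd : (N : ℤ) = g * (A * γ 1 1 - C * (N * γ 0 1)) := by
    have h1 : (N : ℤ) * (γ 0 0 * γ 1 1 - γ 0 1 * y) = N := by rw [hdet, mul_one]
    linear_combination (-1) * h1 + (γ 1 1) * (hx.symm.trans hA) - (N * γ 0 1) * hC
  have hg0 : 0 < g := by
    rcases Nat.eq_zero_or_pos g with h0 | h0
    · rw [h0] at hNdvd
      simp only [Nat.cast_zero, zero_mul] at hNdvd
      omega
    · exact h0
  have hgz : (g : ℤ) ≠ 0 := by positivity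
  have hone : A * u + C * v = 1 := by
    apply mul_left_cancel₀ hgz
    linear_combination (-u) * hA - v * hC - hbez
  obtain ⟨d, hd⟩ : g ∣ N := by
    have : (g : ℤ) ∣ N := ⟨_, hNdvd⟩
    exact_mod_cast this
  have hd' : (d : ℤ) = A * γ 1 1 - C * (N * γ 0 1) := by
    apply mul_left_cancel₀ hgz
    rw [← hNdvd, hd]
    push_cast
    ring
  have hd0 : 0 < d := by
    rcases Nat.eq_zero_or_pos d with h0 | h0
    · rw [h0, mul_zero] at hd; omega
    · exact h0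
  let δ : SL(2, ℤ) := ⟨!![A, -v; C, u], by rw [Matrix.det_fin_two_of]; linarith⟩
  refine ⟨g, d, u * (N * γ 0 1) + v * γ 1 1, δ, hg0, hd0, hd.symm, ?_, ?_, ?_, ?_⟩
  · change x = A * g
    linarith
  · change (N : ℤ) * γ 0 1 = A * (u * (N * γ 0 1) + v * γ 1 1) + (-v) * d
    rw [hd']
    linear_combination (-(N * γ 0 1)) * hone
  · change y = C * g
    linarith
  · change γ 1 1 = C * (u * (N * γ 0 1) + v * γ 1 1) + u * d
    rw [hd']
    linear_combination (-(γ 1 1)) * hone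

/-- the transformation law of `H` -/
theorem HN_slash {N a d : ℕ} {b : ℤ} {γ δ : SL(2, ℤ)} (ha : 0 < a) (hd : 0 < d) (hN : 0 < N)
    (h1 : N * γ 0 0 = δ 0 0 * a) (h2 : N * γ 0 1 = δ 0 0 * b + δ 0 1 * d)
    (h3 : γ 1 0 = δ 1 0 * a) (h4 : γ 1 1 = δ 1 0 * b + δ 1 1 * d) :
    HN N ∣[12 * ((N : ℤ) - 1)] γ = Hc N a d b := by
  ext z
  have hd0 : (d : ℂ) ≠ 0 := by exact_mod_cast hd.ne'
  have hden : denom γ z = denom δ (aff a d b z) * d := by
    rw [ModularGroup.denom_apply, ModularGroup.denom_apply, coe_aff ha hd]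
    have h3' := congrArg (fun x : ℤ ↦ (x : ℂ)) h3
    have h4' := congrArg (fun x : ℤ ↦ (x : ℂ)) h4
    push_cast at h3' h4'
    rw [h3', h4']
    field_simp
    ring
  have hpt : aff N 1 0 (γ • z) = δ • aff a d b z := by
    apply UpperHalfPlane.ext
    have e1 := congrArg (fun x : ℤ ↦ (x : ℂ)) h1
    have e2 := congrArg (fun x : ℤ ↦ (x : ℂ)) h2
    have e3 := congrArg (fun x : ℤ ↦ (x : ℂ)) h3
    have e4 := congrArg (fun x : ℤ ↦ (x : ℂ)) h4
    push_cast at e1 e2 e3 e4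
    have n1 : (γ 1 0 : ℂ) * z + γ 1 1 ≠ 0 := by
      have := denom_ne_zero γ z
      rwa [ModularGroup.denom_apply] at this
    have n2 : (δ 1 0 : ℂ) * (aff a d b z : ℂ) + δ 1 1 ≠ 0 := by
      have := denom_ne_zero δ (aff a d b z)
      rwa [ModularGroup.denom_apply] at this
    rw [coe_aff hN one_pos, coe_specialLinearGroup_apply, coe_specialLinearGroup_apply]
    simp only [algebraMap_int_eq, eq_intCast, Complex.ofReal_intCast]
    rw [coe_aff ha hd] at n2 ⊢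
    rw [div_eq_div_iff (by simp) n2]
    simp only [Int.cast_zero, add_zero, Nat.cast_one, mul_one]
    rw [mul_div_assoc', div_mul_eq_mul_div, div_eq_iff n1]
    field_simp
    linear_combination (z * ((δ 1 0 : ℂ) * (a * z + b) + d * δ 1 1)) * e1 +
      ((δ 1 0 : ℂ) * (a * z + b) + d * δ 1 1) * e2
      - ((δ 0 0 : ℂ) * (a * z + b) + d * δ 0 1) * (z * e3 + e4)
  rw [SL_slash_apply, HN, Hc, Hc, hpt, disc_smul, disc_smul, hden]
  have hj : denom δ (aff a d b z) ≠ 0 := denom_ne_zero _ _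
  set j := denom δ (aff a d b z)
  have hJ : j * d ≠ 0 := mul_ne_zero hj hd0
  have hD : Δ (aff a d b z) ≠ 0 := discriminant_ne_zero _
  rw [mul_pow, ← zpow_natCast ((j * (d : ℂ)) ^ (12 : ℤ)), ← zpow_mul]
  have e5 : (j * (d : ℂ)) ^ (12 * (N : ℤ)) * (j * (d : ℂ)) ^ (-(12 * ((N : ℤ) - 1))) =
      j ^ (12 : ℤ) * (d : ℂ) ^ (12 : ℕ) := by
    rw [← zpow_add₀ hJ, show (12 * (N : ℤ)) + (-(12 * ((N : ℤ) - 1))) = 12 by ring, mul_zpow]
    norm_cast
  have hj12 : j ^ (12 : ℤ) ≠ 0 := zpow_ne_zero _ hj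
  rw [Nat.cast_one, one_pow, one_mul, div_mul_eq_mul_div, mul_right_comm, e5]
  field_simp

end

end Fermat.Agent.IntStr
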