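import Mathlib
import Fermat.Agent.IntStr.HForm

set_option autoImplicit false

namespace Fermat.Agent.IntStr

open UpperHalfPlane Function ModularForm PowerSeries CongruenceSubgroup Filter
open scoped Manifold Topology MatrixGroups ModularForm Real

noncomputable section

local notation "Δ" => ModularForm.discriminant
local notation "𝕢" => Periodic.qParam

theorem mdiff_comp_aff {f : ℍ → ℂ} (hf : MDiff f) {a d : ℕ} (ha : 0 < a) (hd : 0 < d) (b : ℤ) :
    MDiff (fun z ↦ f (aff a d b z)) := by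
  rw [UpperHalfPlane.mdifferentiable_iff] at hf ⊢
  have h1 : DifferentiableOn ℂ ((f ∘ ofComplex) ∘ fun z : ℂ ↦ ((a : ℂ) * z + b) / d)
      {z | 0 < z.im} := by
    refine hf.comp (by fun_prop) fun z hz ↦ ?_
    exact im_aff_pos ha hd b hz
  refine h1.congr fun z hz ↦ ?_
  simp only [comp_apply, aff]
  rw [ofComplex_apply_of_im_pos hz]

theorem tendsto_aff {a d : ℕ} (ha : 0 < a) (hd : 0 < d) (b : ℤ) :
    Tendsto (aff a d b) atImInfty atImInfty := by
  rw [atImInfty, tendsto_comap_iff]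
  have h1 : (UpperHalfPlane.im ∘ aff a d b) = fun z : ℍ ↦ (a : ℝ) / d * z.im := by
    ext z
    have : (aff a d b z).im = ((aff a d b z : ℍ) : ℂ).im := rfl
    rw [comp_apply, this, coe_aff ha hd, Complex.div_natCast_im]
    simp only [Complex.add_im, Complex.mul_im, Complex.natCast_re, Complex.natCast_im, zero_mul,
      add_zero, Complex.intCast_im]
    rw [div_mul_eq_mul_div]
    rfl
  rw [h1]
  have : 0 < (a : ℝ) / d := by positivity
  exact (tendsto_comap).const_mul_atTop this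

theorem periodic_comp_aff {f : ℍ → ℂ} (hf : Periodic (f ∘ ofComplex) 1) {a d N : ℕ}
    (hd : 0 < d) (b : ℤ) (had : a * d = N) :
    Periodic ((fun z ↦ f (aff a d b z)) ∘ ofComplex) N := by
  intro w
  simp only [comp_apply]
  by_cases hw : 0 < w.im
  · have hw' : 0 < (w + N).im := by simpa using hw
    rw [aff, aff, ofComplex_apply_of_im_pos hw, ofComplex_apply_of_im_pos hw']
    have h1 := hf.nat_mul (a ^ 2) (((a : ℂ) * w + b) / d)
    simp only [comp_apply, mul_one] at h1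
    have hd0 : (d : ℂ) ≠ 0 := by exact_mod_cast hd.ne'
    have h2 : ((a : ℂ) * ((⟨w + N, hw'⟩ : ℍ) : ℂ) + b) / d =
        ((a : ℂ) * w + b) / d + ((a ^ 2 : ℕ) : ℂ) := by
      rw [← had]
      change ((a : ℂ) * (w + ((a * d : ℕ) : ℂ)) + b) / d = _
      push_cast
      field_simp
      ring
    rw [h2, h1]
  · have hw' : (w + N).im ≤ 0 := by simpa using hw
    rw [ofComplex_apply_of_im_nonpos (not_lt.mp hw), ofComplex_apply_of_im_nonpos hw']

theorem comp_aff_mem_QR {f : ℍ → ℂ} (hf : f ∈ QR 1) {a d N : ℕ} (ha : 0 < a)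
    (hd : 0 < d) (b : ℤ) (had : a * d = N) : (fun z ↦ f (aff a d b z)) ∈ QR N :=
  ⟨periodic_comp_aff hf.1 hd b had, mdiff_comp_aff hf.2.1 ha hd b,
    hf.2.2.comp_tendsto (tendsto_aff ha hd b)⟩

/-- the root of unity attached to `(b, d)` -/
def zt (d : ℕ) (b : ℤ) : ℂ := Complex.exp (2 * π * Complex.I * (b / d))

theorem qParam_aff {a d N : ℕ} (ha : 0 < a) (hd : 0 < d) (b : ℤ) (had : a * d = N) (z : ℍ) :
    𝕢 1 (aff a d b z) = zt d b * 𝕢 N z ^ (a ^ 2) := by
  rw [Periodic.qParam, Periodic.qParam, coe_aff ha hd, zt, ← Complex.exp_nat_mul, ← Complex.exp_add,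
    ← had]
  congr 1
  have hd0 : (d : ℂ) ≠ 0 := by exact_mod_cast hd.ne'
  have ha0 : (a : ℂ) ≠ 0 := by exact_mod_cast ha.ne'
  push_cast
  field_simp
  ring

/-- coefficients of `f ∘ aff` -/
def caff (f : ℍ → ℂ) (a d : ℕ) (b : ℤ) (m : ℕ) : ℂ :=
  if a ^ 2 ∣ m then (qExpansion 1 f).coeff (m / a ^ 2) * zt d b ^ (m / a ^ 2) else 0

theorem hasSum_caff {f : ℍ → ℂ} (hf : f ∈ QR 1) {a d N : ℕ} (ha : 0 < a)
    (hd : 0 < d) (b : ℤ) (had : a * d = N) (τ : ℍ) :
    HasSum (fun m ↦ caff f a d b m • 𝕢 N τ ^ m) (f (aff a d b τ)) := by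
  have ha2 : 0 < a ^ 2 := by positivity
  have h1 := UpperHalfPlane.hasSum_qExpansion one_pos hf.1 hf.2.1 hf.2.2 (aff a d b τ)
  have hinj : Injective (fun n : ℕ ↦ a ^ 2 * n) := fun x y h ↦ Nat.eq_of_mul_eq_mul_left ha2 h
  rw [← hinj.hasSum_iff]
  · have h2 : ((fun m ↦ caff f a d b m • 𝕢 N τ ^ m) ∘ fun n : ℕ ↦ a ^ 2 * n) =
        fun m ↦ (qExpansion 1 f).coeff m • 𝕢 1 (aff a d b τ) ^ m := by
      ext n
      simp only [comp_apply, caff]
      rw [if_pos (dvd_mul_right _ _), Nat.mul_div_cancel_left _ ha2, qParam_aff ha hd b had,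
        mul_pow, ← pow_mul, smul_eq_mul, smul_eq_mul, mul_assoc]
    rw [h2]
    exact h1
  · intro m hm
    have : ¬ a ^ 2 ∣ m := by
      rintro ⟨c, rfl⟩
      exact hm ⟨c, rfl⟩
    simp [caff, this]

/-- auxiliary copy of the type of functions -/
def FnL : Type := ℍ → ℂ

instance : FunLike FnL ℍ ℂ where
  coe f := f
  coe_injective _ _ h := h

theorem qExp_unique {f : ℍ → ℂ} {h : ℝ} (hh : 0 < h) (hf : f ∈ QR h) {c : ℕ → ℂ}
    (hs : ∀ τ : ℍ, HasSum (fun m ↦ c m • 𝕢 h τ ^ m) (f τ)) (m : ℕ) :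
    (qExpansion h f).coeff m = c m :=
  (qExpansion_coeff_unique (F := FnL) (show FnL from f) hh (QR.analyticAt hh hf) hs m).symm

theorem coeff_comp_aff {f : ℍ → ℂ} (hf : f ∈ QR 1) {a d N : ℕ} (ha : 0 < a)
    (hd : 0 < d) (b : ℤ) (had : a * d = N) (m : ℕ) :
    (qExpansion N (fun z ↦ f (aff a d b z))).coeff m = caff f a d b m := by
  have hN : (0 : ℝ) < N := by
    rw [← had]; positivity
  exact qExp_unique hN (comp_aff_mem_QR hf ha hd b had) (hasSum_caff hf ha hd b had) m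

/-! ### Behaviour of `Hc` at infinity -/

/-- the product part of the discriminant -/
def EE (z : ℍ) : ℂ := ∏' n, (1 - eta_q n z) ^ 24

theorem disc_eq (z : ℍ) : Δ z = 𝕢 1 z * EE z := discriminant_eq_q_prod z

theorem tendsto_EE : Tendsto EE atImInfty (𝓝 1) := tendsto_atImInfty_tprod_one_sub_eta_q_pow

theorem EE_ne_zero (z : ℍ) : EE z ≠ 0 := by
  intro h
  have := disc_eq z
  rw [h, mul_zero] at this
  exact discriminant_ne_zero z this

theorem Hc_eq (N a d : ℕ) (b : ℤ) (z : ℍ) :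
    Hc N a d b z = (d : ℂ) ^ 12 * (𝕢 1 z ^ N / 𝕢 1 (aff a d b z)) *
      (EE z ^ N / EE (aff a d b z)) := by
  have h1 : 𝕢 1 (aff a d b z) ≠ 0 := Complex.exp_ne_zero _
  have h2 := EE_ne_zero (aff a d b z)
  rw [Hc, disc_eq, disc_eq, mul_pow]
  field_simp

theorem tendsto_EE_quot {N a d : ℕ} (ha : 0 < a) (hd : 0 < d) (b : ℤ) :
    Tendsto (fun z ↦ EE z ^ N / EE (aff a d b z)) atImInfty (𝓝 1) := by
  have := (tendsto_EE.pow N).div (tendsto_EE.comp (tendsto_aff ha hd b)) one_ne_zero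
  rw [one_pow, div_one] at this
  exact this

theorem tendsto_HN {N : ℕ} (hN : 0 < N) : Tendsto (HN N) atImInfty (𝓝 1) := by
  have h1 : HN N = fun z ↦ EE z ^ N / EE (aff N 1 0 z) := by
    ext z
    rw [HN, Hc_eq]
    have : 𝕢 1 (aff N 1 0 z) = 𝕢 1 z ^ N := by
      rw [Periodic.qParam, Periodic.qParam, coe_aff hN one_pos, ← Complex.exp_nat_mul]
      congr 1
      push_cast
      ring
    have h0 : 𝕢 1 z ≠ 0 := Complex.exp_ne_zero _
    rw [this, div_self (pow_ne_zero _ h0)]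
    simp
  rw [h1]
  exact tendsto_EE_quot hN one_pos 0

theorem tendsto_Hc_zero {N a d : ℕ} (ha : 0 < a) (hd : 0 < d) (b : ℤ)
    (hlt : a < N * d) : Tendsto (Hc N a d b) atImInfty (𝓝 0) := by
  have h1 : Tendsto (fun z : ℍ ↦ 𝕢 1 z ^ N / 𝕢 1 (aff a d b z)) atImInfty (𝓝 0) := by
    rw [tendsto_zero_iff_norm_tendsto_zero]
    have h2 : ∀ z : ℍ, ‖𝕢 1 z ^ N / 𝕢 1 (aff a d b z)‖ =
        Real.exp (-(2 * π * ((N : ℝ) - a / d) * z.im)) := by
      intro z
      rw [norm_div, norm_pow, Periodic.norm_qParam, Periodic.norm_qParam, ← Real.exp_nat_mul,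
        ← Real.exp_sub, coe_aff ha hd, Complex.div_natCast_im]
      simp only [Complex.add_im, Complex.mul_im, Complex.natCast_re, Complex.natCast_im, zero_mul,
        add_zero, Complex.intCast_im]
      congr 1
      have hd0 : (d : ℝ) ≠ 0 := by exact_mod_cast hd.ne'
      change (N : ℝ) * (-2 * π * z.im / 1) - -2 * π * (a * z.im / d) / 1 = _
      field_simp
      ring
    simp_rw [h2]
    have h3 : 0 < 2 * π * ((N : ℝ) - a / d) := by
      have : (a : ℝ) / d < N := by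
        rw [div_lt_iff₀ (by exact_mod_cast hd)]
        exact_mod_cast hlt
      have h4 : 0 < (N : ℝ) - a / d := by linarith
      positivity
    have h5 : Tendsto (fun z : ℍ ↦ 2 * π * ((N : ℝ) - a / d) * z.im) atImInfty atTop :=
      (tendsto_comap).const_mul_atTop h3
    exact Real.tendsto_exp_neg_atTop_nhds_zero.comp h5
  have h2 := ((tendsto_const_nhds (x := (d : ℂ) ^ 12)).mul h1).mul
    (tendsto_EE_quot (N := N) ha hd b)
  simp only [mul_zero, zero_mul] at h2
  exact h2.congr fun z ↦ (Hc_eq N a d b z).symm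

theorem lt_of_one_lt {N a d : ℕ} (ha : 0 < a) (had : a * d = N) (hd : 1 < d) : a < N * d := by
  rw [← had]
  nlinarith [Nat.mul_le_mul_left a hd]

theorem zt_ne_zero (d : ℕ) (b : ℤ) : zt d b ≠ 0 := Complex.exp_ne_zero _

theorem mdiff_Hc {N a d : ℕ} (ha : 0 < a) (hd : 0 < d) (b : ℤ) : MDiff (Hc N a d b) := by
  have h1 : MDiff Δ := isS1_discriminant.holo
  have h2 := mdiff_comp_aff h1 ha hd b
  have h3 : MDiff (fun z ↦ (d : ℂ) ^ 12 * Δ z ^ N) := by
    change _ ∈ HolA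
    exact HolA.mul_mem (HolA.algebraMap_mem ((d : ℂ) ^ 12)) (HolA.pow_mem (mem_HolA.mpr h1) N)
  exact MDifferentiable.div h3 h2 fun z ↦ discriminant_ne_zero _

theorem isBounded_Hc {N a d : ℕ} (ha : 0 < a) (hd : 0 < d) (b : ℤ) (had : a * d = N) :
    IsBoundedAtImInfty (Hc N a d b) := by
  rcases Nat.lt_or_ge 1 d with h1 | h1
  · exact (tendsto_Hc_zero ha hd b (lt_of_one_lt ha had h1)).isBigO_one ℝ
  · have hd1 : d = 1 := by omega
    subst hd1
    rw [mul_one] at had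
    subst had
    have h2 : Tendsto (Hc a a 1 b) atImInfty (𝓝 (zt 1 (-b))) := by
      have h3 := ((tendsto_const_nhds (x := zt 1 (-b))).mul
        (tendsto_EE_quot (N := a) ha one_pos b))
      rw [mul_one] at h3
      refine h3.congr fun z ↦ ?_
      rw [Hc_eq]
      congr 1
      rw [Periodic.qParam, Periodic.qParam, coe_aff ha one_pos, ← Complex.exp_nat_mul,
        ← Complex.exp_sub, zt]
      push_cast
      rw [one_pow, one_mul]
      congr 1
      ring
    exact h2.isBigO_one ℝ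

end

end Fermat.Agent.IntStr
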