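import Mathlib
import Fermat.Agent.IntStr.HForm2

set_option autoImplicit false

namespace Fermat.Agent.IntStr

open UpperHalfPlane Function ModularForm PowerSeries CongruenceSubgroup Filter
open scoped Manifold Topology MatrixGroups ModularForm Real

noncomputable section

local notation "Δ" => ModularForm.discriminant
local notation "𝕢" => Periodic.qParam

/-- weight of `H` -/
def wt (N : ℕ) : ℤ := 12 * ((N : ℤ) - 1)

theorem disc_aff_eq {N : ℕ} (b : ℤ) (z : ℍ) : Δ (aff N 1 b z) = Δ (aff N 1 0 z) := by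
  have hper := isS1_discriminant.isM1.mem_QR.1
  have h1 := hper.int_mul b ((N : ℂ) * z)
  simp only [comp_apply, mul_one, Complex.ofReal_one] at h1
  have h2 : aff N 1 b z = ofComplex ((N : ℂ) * z + b) := by simp [aff]
  have h3 : aff N 1 0 z = ofComplex ((N : ℂ) * z) := by simp [aff]
  rw [h2, h3, h1]

theorem Hc_one_eq {N : ℕ} (b : ℤ) : Hc N N 1 b = HN N := by
  ext z
  simp only [HN, Hc]
  rw [disc_aff_eq b z]

theorem exists_Hc {N : ℕ} (hN : 0 < N) (γ : SL(2, ℤ)) :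
    ∃ (a d : ℕ) (b : ℤ), 0 < a ∧ 0 < d ∧ a * d = N ∧ HN N ∣[wt N] γ = Hc N a d b ∧
      (γ ∈ Gamma0 N ↔ d = 1) := by
  obtain ⟨a, d, b, δ, ha, hd, had, h1, h2, h3, h4⟩ := decomp hN γ
  refine ⟨a, d, b, ha, hd, had, HN_slash ha hd hN h1 h2 h3 h4, ?_⟩
  rw [Gamma0_mem, ZMod.intCast_zmod_eq_zero_iff_dvd]
  constructor
  · intro hdvd
    have hdet : γ 0 0 * γ 1 1 - γ 0 1 * γ 1 0 = 1 := by
      have := γ.det_coe
      rwa [Matrix.det_fin_two] at this
    have hdz : (d : ℤ) ∣ δ 1 0 := by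
      rw [h3, ← had] at hdvd
      push_cast at hdvd
      rw [mul_comm (a : ℤ)] at hdvd
      exact Int.dvd_of_mul_dvd_mul_right (by exact_mod_cast ha.ne') hdvd
    have hd1 : (d : ℤ) ∣ γ 1 1 := by
      rw [h4]
      exact dvd_add (Dvd.dvd.mul_right hdz b) (dvd_mul_left _ _)
    have hd2 : (d : ℤ) ∣ γ 1 0 := by
      rw [h3]
      exact Dvd.dvd.mul_right hdz a
    have : (d : ℤ) ∣ 1 := by
      rw [← hdet]
      exact dvd_sub (Dvd.dvd.mul_left hd1 _) (Dvd.dvd.mul_left hd2 _)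
    have := Int.eq_one_of_dvd_one (by positivity) this
    exact_mod_cast this
  · intro hd1
    subst hd1
    rw [mul_one] at had
    subst had
    rw [h3]
    exact dvd_mul_left _ _

theorem HN_slash_mem {N : ℕ} (hN : 0 < N) {γ : SL(2, ℤ)} (hγ : γ ∈ Gamma0 N) :
    HN N ∣[wt N] γ = HN N := by
  obtain ⟨a, d, b, ha, hd, had, h, h'⟩ := exists_Hc hN γ
  have hd1 := h'.mp hγ
  subst hd1
  rw [mul_one] at had
  subst had
  rw [h, Hc_one_eq]

theorem HN_slash_tendsto {N : ℕ} (hN : 0 < N) {γ : SL(2, ℤ)} (hγ : γ ∉ Gamma0 N) :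
    Tendsto (HN N ∣[wt N] γ) atImInfty (𝓝 0) := by
  obtain ⟨a, d, b, ha, hd, had, h, h'⟩ := exists_Hc hN γ
  have hd1 : 1 < d := by
    rcases Nat.lt_or_ge 1 d with h1 | h1
    · exact h1
    · exact absurd (h'.mpr (by omega)) hγ
  rw [h]
  exact tendsto_Hc_zero ha hd b (lt_of_one_lt ha had hd1)

theorem isMN_HN {N : ℕ} (hN : 0 < N) : IsMN N (wt N) (HN N) where
  slash _ hγ := HN_slash_mem hN hγ
  holo := mdiff_Hc hN one_pos 0
  bdd γ := by
    obtain ⟨a, d, b, ha, hd, had, h, -⟩ := exists_Hc hN γ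
    rw [h]
    exact isBounded_Hc ha hd b had

/-! ### Integrality of the expansions -/

theorem Hc_mem_QR {N a d : ℕ} (ha : 0 < a) (hd : 0 < d) (b : ℤ) (had : a * d = N) :
    Hc N a d b ∈ QR N := by
  refine ⟨?_, mdiff_Hc ha hd b, isBounded_Hc ha hd b had⟩
  have hper := isS1_discriminant.isM1.mem_QR.1
  have h1 := periodic_comp_aff hper hd b had
  have h2 := hper.nat_mul N
  simp only [Complex.ofReal_one, mul_one] at h2
  intro w
  have e1 := h1 w
  have e2 := h2 w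
  simp only [comp_apply] at e1 e2 ⊢
  rw [Complex.ofReal_natCast, Hc, Hc, e1, e2]

theorem zt_isIntegral (d : ℕ) (hd : 0 < d) (b : ℤ) : zt d b ∈ algC := by
  rw [mem_algC]
  have h1 : zt d b ^ d = 1 := by
    rw [zt, ← Complex.exp_nat_mul]
    have hd0 : (d : ℂ) ≠ 0 := by exact_mod_cast hd.ne'
    rw [show (d : ℂ) * (2 * π * Complex.I * (b / d)) = b * (2 * π * Complex.I) by field_simp]
    exact Complex.exp_int_mul_two_pi_mul_I b
  exact IsIntegral.of_pow hd (by rw [h1]; exact isIntegral_one)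

theorem zt_neg_mul (d : ℕ) (b : ℤ) : zt d (-b) * zt d b = 1 := by
  rw [zt, zt, ← Complex.exp_add, ← Complex.exp_zero]
  congr 1
  push_cast
  ring

theorem qExp_N_mem {N : ℕ} (hN : 0 < N) {f : ℍ → ℂ} (hf : f ∈ QR 1) {A : Subring ℂ}
    (h : qExpansion 1 f ∈ PSub A) : qExpansion N f ∈ PSub A := by
  intro n
  rw [coeff_nat hf hN]
  split_ifs
  · exact h _
  · exact A.zero_mem

theorem qExp_one_mem {N : ℕ} (hN : 0 < N) {f : ℍ → ℂ} (hf : f ∈ QR 1) {A : Subring ℂ}
    (h : qExpansion N f ∈ PSub A) : qExpansion 1 f ∈ PSub A := by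
  intro n
  have := h (N * n)
  rwa [coeff_nat hf hN, if_pos (dvd_mul_right _ _), Nat.mul_div_cancel_left _ hN] at this

theorem disc_coeff_zero : (qExpansion 1 Δ).coeff 0 = 0 :=
  CuspFormClass.qExpansion_coeff_zero CuspForm.discriminant one_pos one_mem_strictPeriods_SL

theorem qExpansion_Hc_mem {N a d : ℕ} (ha : 0 < a) (hd : 0 < d) (b : ℤ) (had : a * d = N)
    {A : Subring ℂ} (hA : intC ≤ A) (hz : zt d b ∈ A) (hz' : zt d (-b) ∈ A) :
    qExpansion N (Hc N a d b) ∈ PSub A := by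
  have hN : 0 < N := by rw [← had]; positivity
  have hN' : (0 : ℝ) < N := by exact_mod_cast hN
  have hD := isS1_discriminant.isM1.mem_QR
  have ha2 : 0 < a ^ 2 := by positivity
  set F := qExpansion N (fun z ↦ Δ (aff a d b z)) with hF
  let V : PowerSeries ℂ := PowerSeries.mk fun m ↦ caff Δ a d b (m + a ^ 2)
  have hFV : F = V * X ^ (a ^ 2) := by
    ext m
    rw [coeff_mul_X_pow', hF, coeff_comp_aff hD ha hd b had]
    split_ifs with hm
    · simp only [V, coeff_mk]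
      rw [Nat.sub_add_cancel hm]
    · rw [caff]
      split_ifs with h1
      · have : m = 0 := Nat.eq_zero_of_dvd_of_lt h1 (not_le.mp hm)
        rw [this, Nat.zero_div, disc_coeff_zero, zero_mul]
      · rfl
  have hV : V ∈ PSub A := by
    intro m
    simp only [V, coeff_mk, caff]
    split_ifs
    · exact A.mul_mem (hA (qExpansion_discriminant_mem _)) (A.pow_mem hz _)
    · exact A.zero_mem
  have hV0 : coeff 0 V = zt d b := by
    simp only [V, coeff_mk, caff, zero_add]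
    rw [if_pos dvd_rfl, Nat.div_self ha2, discriminant_qExpansion_coeff_one, pow_one, one_mul]
  have hmul : qExpansion N (Hc N a d b) * F = (d : ℂ) ^ 12 • (qExpansion N Δ) ^ N := by
    have hDN := QR_nat_mul hD N
    have h1 : (⟨Hc N a d b, Hc_mem_QR ha hd b had⟩ : QR N) *
        ⟨_, comp_aff_mem_QR hD ha hd b had⟩ = (d : ℂ) ^ 12 • ⟨Δ, hDN⟩ ^ N := by
      ext z
      change Hc N a d b z * Δ (aff a d b z) = (d : ℂ) ^ 12 * Δ z ^ N
      rw [Hc, div_mul_cancel₀ _ (discriminant_ne_zero _)]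
    have h2 := congrArg (qHom N hN') h1
    rwa [map_mul, map_smul, map_pow] at h2
  have hR : (d : ℂ) ^ 12 • (qExpansion N Δ) ^ N ∈ PSub A := by
    have h1 : (qExpansion N Δ) ^ N ∈ PSub A :=
      (PSub A).pow_mem (qExp_N_mem hN hD (PSub_mono hA qExpansion_discriminant_mem)) N
    intro n
    rw [PowerSeries.coeff_smul]
    exact A.mul_mem (A.pow_mem (hA (by exact_mod_cast intCast_mem_intC d)) _) (h1 n)
  rw [hFV] at hmul
  have hmul' : (qExpansion N (Hc N a d b) * X ^ (a ^ 2)) * V =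
      (d : ℂ) ^ 12 • (qExpansion N Δ) ^ N := by
    rw [← hmul]; ring
  exact mem_PSub_of_X_pow_mul (mem_PSub_of_mul hV hR ⟨zt d (-b), hz', by rw [hV0, zt_neg_mul]⟩
    hmul')

theorem qExpansion_HN_mem {N : ℕ} (hN : 0 < N) [NeZero N] : qExpansion 1 (HN N) ∈ PSub intC := by
  have hz : zt 1 0 = 1 := by simp [zt]
  have hz' : zt 1 (-0) = 1 := by simp [zt]
  exact qExp_one_mem hN (isMN_HN hN).mem_QR
    (qExpansion_Hc_mem (N := N) hN one_pos 0 (mul_one N) le_rfl (hz ▸ intC.one_mem)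
      (hz' ▸ intC.one_mem))

theorem qExpansion_Hc_mem_algC {N a d : ℕ} (ha : 0 < a) (hd : 0 < d) (b : ℤ) (had : a * d = N) :
    qExpansion N (Hc N a d b) ∈ PSub algC :=
  qExpansion_Hc_mem ha hd b had intC_le_algC (zt_isIntegral d hd b) (zt_isIntegral d hd (-b))

end

end Fermat.Agent.IntStr
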