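import Mathlib

set_option autoImplicit false

namespace Fermat.Agent.IntStr

open MvPolynomial

/-- Extending a ring automorphism of the polynomial ring on a transcendence basis to `ℂ`. -/
theorem exists_ringEquiv_of_transcendenceBasis {R : Type} [CommRing R] [IsDomain R] [Algebra R ℂ]
    {ι : Type} (v : ι → ℂ)
    (hv : IsTranscendenceBasis R v) (e : MvPolynomial ι R ≃+* MvPolynomial ι R) :
    ∃ σ : ℂ ≃+* ℂ, ∀ p, σ (aeval v p) = aeval v (e p) := by
  let := IsAlgClosed.isAlgClosure_of_transcendence_basis v hv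
  let e' : Algebra.adjoin R (Set.range v) ≃+* Algebra.adjoin R (Set.range v) :=
    hv.1.aevalEquiv.symm.toRingEquiv.trans (e.trans hv.1.aevalEquiv.toRingEquiv)
  refine ⟨IsAlgClosure.equivOfEquiv ℂ ℂ e', fun p ↦ ?_⟩
  have h1 : (aeval v p : ℂ) = algebraMap (Algebra.adjoin R (Set.range v)) ℂ
      (hv.1.aevalEquiv p) := by
    simp [AlgebraicIndependent.algebraMap_aevalEquiv]
  have h2 : (aeval v (e p) : ℂ) = algebraMap (Algebra.adjoin R (Set.range v)) ℂ
      (hv.1.aevalEquiv (e p)) := by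
    simp [AlgebraicIndependent.algebraMap_aevalEquiv]
  rw [h1, h2, IsAlgClosure.equivOfEquiv_algebraMap]
  simp [e']

theorem exists_aut_ne_of_transcendental {x : ℂ} (hx : Transcendental ℚ x) :
    ∃ σ : ℂ ≃+* ℂ, σ x ≠ x := by
  have hind : AlgebraicIndependent ℚ ((↑) : ({x} : Set ℂ) → ℂ) := by
    have : AlgebraicIndependent ℚ (fun _ : ({x} : Set ℂ) ↦ x) := by
      rw [algebraicIndependent_unique_type_iff]
      exact hx
    convert this using 2 with y
    exact y.2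
  obtain ⟨B, hB, hb⟩ := exists_isTranscendenceBasis_superset hind
  let e : MvPolynomial B ℚ ≃+* MvPolynomial B ℚ :=
    (AlgEquiv.ofAlgHom (aeval fun b ↦ - X b) (aeval fun b ↦ - X b)
      (by ext b; simp) (by ext b; simp) : MvPolynomial B ℚ ≃ₐ[ℚ] MvPolynomial B ℚ).toRingEquiv
  obtain ⟨σ, hσ⟩ := exists_ringEquiv_of_transcendenceBasis (R := ℚ) _ hb e
  refine ⟨σ, fun h ↦ ?_⟩
  have hxB : x ∈ B := hB rfl
  have := hσ (X ⟨x, hxB⟩)
  simp only [aeval_X] at this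
  rw [h] at this
  have h3 : e (X ⟨x, hxB⟩) = - X ⟨x, hxB⟩ := by simp [e]
  rw [h3] at this
  simp only [map_neg, aeval_X] at this
  have h0 : x = 0 := self_eq_neg.mp this
  exact hx (h0 ▸ isAlgebraic_zero)

theorem exists_aut_ne_of_isAlgebraic {x : ℂ} (hx : IsAlgebraic ℚ x)
    (hx' : ∀ r : ℚ, (r : ℂ) ≠ x) :
    ∃ σ : ℂ ≃+* ℂ, σ x ≠ x := by
  let E := algebraicClosure ℚ ℂ
  have hxE : x ∈ E := mem_algebraicClosure_iff.mpr hx
  have hE : IsAlgClosure ℚ E := algebraicClosure.isAlgClosure ℚ ℂ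
  have hG : IsGalois ℚ E := inferInstance
  obtain ⟨τ, hτ⟩ : ∃ τ : E ≃ₐ[ℚ] E, τ ⟨x, hxE⟩ ≠ ⟨x, hxE⟩ := by
    by_contra! hcon
    have := (InfiniteGalois.mem_bot_iff_fixed (k := ℚ) (K := E) ⟨x, hxE⟩).mpr hcon
    obtain ⟨r, hr⟩ := IntermediateField.mem_bot.mp this
    apply hx' r
    have := congrArg (algebraMap E ℂ) hr
    simpa using this
  obtain ⟨B, hB⟩ := exists_isTranscendenceBasis E ℂ
  obtain ⟨σ, hσ⟩ := exists_ringEquiv_of_transcendenceBasis (R := E) _ hB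
    (MvPolynomial.mapEquiv _ τ.toRingEquiv)
  refine ⟨σ, fun h ↦ hτ ?_⟩
  have := hσ (C ⟨x, hxE⟩)
  simp only [aeval_C, mapEquiv_apply, map_C] at this
  apply Subtype.ext
  have h4 : (algebraMap E ℂ) ⟨x, hxE⟩ = x := rfl
  rw [h4, h] at this
  exact this.symm

/-- A complex number fixed by all ring automorphisms of `ℂ` is rational. -/
theorem exists_rat_of_forall_aut (x : ℂ) (h : ∀ σ : ℂ ≃+* ℂ, σ x = x) : ∃ r : ℚ, (r : ℂ) = x := by
  by_contra! hcon
  by_cases hx : IsAlgebraic ℚ x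
  · obtain ⟨σ, hσ⟩ := exists_aut_ne_of_isAlgebraic hx hcon
    exact hσ (h σ)
  · obtain ⟨σ, hσ⟩ := exists_aut_ne_of_transcendental hx
    exact hσ (h σ)

end Fermat.Agent.IntStr
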