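import Mathlib
import Fermat.Agent.IntStr.AutC
import Fermat.Agent.IntStr.HForm3

set_option autoImplicit false

namespace Fermat.Agent.IntStr

open UpperHalfPlane Function ModularForm PowerSeries CongruenceSubgroup Filter
open scoped Manifold Topology MatrixGroups ModularForm Real

noncomputable section

/-- functions with expansions in a subring -/
def QRA (h : ℝ) (hh : 0 < h) (A : Subring ℂ) : Subring (ℍ → ℂ) where
  carrier := {f | f ∈ QR h ∧ qExpansion h f ∈ PSub A}
  mul_mem' := by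
    rintro f g ⟨hf, hf'⟩ ⟨hg, hg'⟩
    refine ⟨(QR h).mul_mem hf hg, ?_⟩
    change qExpansion h (f * g) ∈ PSub A
    rw [qExpansion_mul (QR.analyticAt hh hf) (QR.analyticAt hh hg)]
    exact (PSub A).mul_mem hf' hg'
  one_mem' := ⟨(QR h).one_mem, by rw [qExpansion_one]; exact (PSub A).one_mem⟩
  add_mem' := by
    rintro f g ⟨hf, hf'⟩ ⟨hg, hg'⟩
    refine ⟨(QR h).add_mem hf hg, ?_⟩
    change qExpansion h (f + g) ∈ PSub A
    rw [qExpansion_add (QR.analyticAt hh hf) (QR.analyticAt hh hg)]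
    exact (PSub A).add_mem hf' hg'
  zero_mem' := ⟨(QR h).zero_mem, by rw [qExpansion_zero]; exact (PSub A).zero_mem⟩
  neg_mem' := by
    rintro f ⟨hf, hf'⟩
    refine ⟨neg_mem hf, ?_⟩
    change qExpansion h (-f) ∈ PSub A
    rw [qExpansion_neg (QR.analyticAt hh hf)]
    exact (PSub A).neg_mem hf'

instance : IsDomain HolA where
  exists_pair_ne := ⟨0, 1, fun h ↦ by
    have := congrFun (congrArg Subtype.val h) I
    simp at this⟩
  mul_left_cancel_of_ne_zero := by
    intro a ha b c h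
    have h1 : (a : ℍ → ℂ) * ((b : ℍ → ℂ) - c) = 0 := by
      have := congrArg Subtype.val h
      simp only [Subalgebra.coe_mul] at this
      rw [mul_sub, this, sub_self]
    rcases (UpperHalfPlane.mul_eq_zero_iff a.2 (HolA.sub_mem b.2 c.2)).mp h1 with h2 | h2
    · exact absurd (Subtype.ext h2) ha
    · exact Subtype.ext (sub_eq_zero.mp h2)
  mul_right_cancel_of_ne_zero := by
    intro a ha b c h
    have h1 : (a : ℍ → ℂ) * ((b : ℍ → ℂ) - c) = 0 := by
      have := congrArg Subtype.val h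
      simp only [Subalgebra.coe_mul] at this
      rw [mul_sub, mul_comm, this, mul_comm, sub_self]
    rcases (UpperHalfPlane.mul_eq_zero_iff a.2 (HolA.sub_mem b.2 c.2)).mp h1 with h2 | h2
    · exact absurd (Subtype.ext h2) ha
    · exact Subtype.ext (sub_eq_zero.mp h2)

/-- slashing a polynomial relation -/
theorem slash_poly {n : ℕ} {w : ℤ} {A : ℕ → ℍ → ℂ} {B : ℍ → ℂ} (γ : SL(2, ℤ))
    (hA : ∀ m ≤ n, A m ∣[((n : ℤ) - m) * w] γ = A m)
    (h : ∀ z, ∑ m ∈ Finset.range (n + 1), A m z * B z ^ m = 0) (z : ℍ) :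
    ∑ m ∈ Finset.range (n + 1), A m z * (B ∣[w] γ) z ^ m = 0 := by
  have h1 := h (γ • z)
  have hd := denom_ne_zero γ z
  have h2 : ∑ m ∈ Finset.range (n + 1), A m (γ • z) * B (γ • z) ^ m =
      (∑ m ∈ Finset.range (n + 1), A m z * (B ∣[w] γ) z ^ m) * denom γ z ^ (n * w) := by
    rw [Finset.sum_mul]
    refine Finset.sum_congr rfl fun m hm ↦ ?_
    have hm' : m ≤ n := Nat.lt_succ_iff.mp (Finset.mem_range.mp hm)
    have h3 := congrFun (hA m hm') z
    rw [SL_slash_apply] at h3
    rw [← h3, SL_slash_apply, mul_pow, ← zpow_natCast (denom γ z ^ (-w)), ← zpow_mul]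
    have h4 : denom γ z ^ (-(((n : ℤ) - m) * w)) * denom γ z ^ (-w * m) *
        denom γ z ^ ((n : ℤ) * w) = 1 := by
      rw [← zpow_add₀ hd, ← zpow_add₀ hd,
        show -(((n : ℤ) - m) * w) + -w * m + n * w = 0 by ring, zpow_zero]
    linear_combination (-(A m (γ • z) * B (γ • z) ^ m)) * h4
  rw [h2] at h1
  exact (mul_eq_zero.mp h1).resolve_right (zpow_ne_zero _ hd)

variable {N : ℕ} [NeZero N]

variable (N) in
/-- the family of conjugates of `H` -/
def hq : Qt N → ℍ → ℂ := cj N (wt N) (HN N)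

variable (N) in
theorem hN : 0 < N := Nat.pos_of_ne_zero (NeZero.ne N)

variable (N) in
theorem hq_isFam : IsFam (wt N) (hq N) := (isMN_HN (hN N)).isFam

variable (N) in
theorem hq_one : hq N ((1 : SL(2, ℤ)) : Qt N) = HN N := cj_one (isMN_HN (hN N)).slash

theorem hq_mk (g : SL(2, ℤ)) : hq N (g : Qt N) = HN N ∣[wt N] g⁻¹ :=
  cj_mk (isMN_HN (hN N)).slash g

theorem hq_tendsto {q : Qt N} (hq' : q ≠ ((1 : SL(2, ℤ)) : Qt N)) :
    Tendsto (hq N q) atImInfty (𝓝 0) := by
  induction q using QuotientGroup.induction_on with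
  | H g =>
    rw [hq_mk]
    apply HN_slash_tendsto (hN N)
    intro hg
    apply hq'
    rw [QuotientGroup.eq]
    simpa using hg

theorem hq_injective : Injective (hq N) := by
  intro q q' h
  induction q using QuotientGroup.induction_on with
  | H g =>
    induction q' using QuotientGroup.induction_on with
    | H g' =>
      rw [hq_mk, hq_mk] at h
      by_contra hne
      have h1 : HN N ∣[wt N] (g⁻¹ * g') = HN N := by
        rw [SlashAction.slash_mul, h, ← SlashAction.slash_mul, inv_mul_cancel,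
          SlashAction.slash_one]
      have h2 : g⁻¹ * g' ∉ Gamma0 N := fun hg ↦ hne (QuotientGroup.eq.mpr hg)
      have h3 := HN_slash_tendsto (hN N) h2
      rw [h1] at h3
      exact zero_ne_one (tendsto_nhds_unique h3 (tendsto_HN (hN N)))

variable (N) in
/-- the coefficients of the characteristic polynomial of `H` -/
def cH (m : ℕ) : ℍ → ℂ := cf (hq N) m

theorem cH_isM1 {m : ℕ} (hm : m ≤ Fintype.card (Qt N)) :
    IsM1 (((Fintype.card (Qt N) : ℤ) - m) * wt N) (cH N m) := (hq_isFam N).isM1_cf hm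

theorem cH_card : cH N (Fintype.card (Qt N)) = 1 := cf_card _

theorem sum_cH (q : Qt N) (z : ℍ) :
    ∑ m ∈ Finset.range (Fintype.card (Qt N) + 1), cH N m z * hq N q z ^ m = 0 := by
  have := sum_cf (hq N) z (hq N q z)
  rw [show ∑ m ∈ Finset.range (Fintype.card (Qt N) + 1), cH N m z * hq N q z ^ m = _ from this]
  exact Finset.prod_eq_zero (Finset.mem_univ q) (sub_self _)

theorem cH_algC {m : ℕ} (hm : m ≤ Fintype.card (Qt N)) :
    qExpansion 1 (cH N m) ∈ PSub algC := by
  have hN' : (0 : ℝ) < N := by exact_mod_cast hN N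
  have h1 : cH N m ∈ QRA N hN' algC := by
    refine cf_mem_subring _ _ (fun q ↦ ?_) hm
    obtain ⟨a, d, b, ha, hd, had, h, -⟩ := exists_Hc (hN N) (q.out)⁻¹
    have h2 : hq N q = Hc N a d b := h
    rw [h2]
    exact ⟨Hc_mem_QR ha hd b had, qExpansion_Hc_mem_algC ha hd b had⟩
  exact qExp_one_mem (hN N) (cH_isM1 hm).mem_QR h1.2

/-- `q`-expansion of a polynomial expression -/
theorem qExp_poly {n : ℕ} {A : ℕ → ℍ → ℂ} {B : ℍ → ℂ} (hA : ∀ m < n, A m ∈ QR 1)
    (hB : B ∈ QR 1) :
    (∑ m ∈ Finset.range n, A m * B ^ m) ∈ QR 1 ∧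
      qExpansion 1 (∑ m ∈ Finset.range n, A m * B ^ m) =
        ∑ m ∈ Finset.range n, qExpansion 1 (A m) * qExpansion 1 B ^ m := by
  induction n with
  | zero =>
    refine ⟨by simp, ?_⟩
    rw [Finset.sum_range_zero, Finset.sum_range_zero, qExpansion_zero]
  | succ n ih =>
    obtain ⟨h1, h2⟩ := ih fun m hm ↦ hA m (by omega)
    have h3 : A n * B ^ n ∈ QR 1 := (QR 1).mul_mem (hA n (by omega)) ((QR 1).pow_mem hB n)
    have h4 : qExpansion 1 (A n * B ^ n) = qExpansion 1 (A n) * qExpansion 1 B ^ n := by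
      have := map_mul (qHom 1 one_pos) ⟨A n, hA n (by omega)⟩ (⟨B, hB⟩ ^ n)
      rw [map_pow] at this
      exact this
    rw [Finset.sum_range_succ, Finset.sum_range_succ, qExp_add h1 h3, h2, h4]
    exact ⟨(QR 1).add_mem h1 h3, rfl⟩

theorem sig_cH (σ : ℂ ≃+* ℂ) {m : ℕ} (hm : m ≤ Fintype.card (Qt N)) :
    sig σ (qExpansion 1 (cH N m)) = qExpansion 1 (cH N m) := by
  set n := Fintype.card (Qt N) with hn
  have hex : ∀ m, ∃ g, m ≤ n → IsM1 (((n : ℤ) - m) * wt N) g ∧
      qExpansion 1 g = sig σ (qExpansion 1 (cH N m)) := by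
    intro m
    by_cases hm : m ≤ n
    · obtain ⟨g, hg⟩ := (cH_isM1 hm).exists_conj σ
      exact ⟨g, fun _ ↦ hg⟩
    · exact ⟨0, fun h ↦ absurd h hm⟩
  choose c' hc' using hex
  have hHQ : HN N ∈ QR 1 := (isMN_HN (hN N)).mem_QR
  have hS : ∑ m ∈ Finset.range (n + 1), c' m * HN N ^ m = 0 := by
    obtain ⟨h1, h2⟩ := qExp_poly (n := n + 1) (A := c') (B := HN N)
      (fun m hm ↦ (hc' m (by omega)).1.mem_QR) hHQ
    obtain ⟨h3, h4⟩ := qExp_poly (n := n + 1) (A := cH N) (B := HN N)
      (fun m hm ↦ (cH_isM1 (m := m) (by omega)).mem_QR) hHQ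
    have h5 : ∑ m ∈ Finset.range (n + 1), cH N m * HN N ^ m = 0 := by
      ext z
      have := sum_cH ((1 : SL(2, ℤ)) : Qt N) z
      rw [hq_one] at this
      simpa [Finset.sum_apply] using this
    apply eq_of_qExpansion_eq one_pos h1 (QR 1).zero_mem
    rw [h2, qExpansion_zero]
    rw [h5, qExpansion_zero] at h4
    have h6 := congrArg (sig σ) h4
    rw [map_zero, map_sum] at h6
    rw [h6]
    refine Finset.sum_congr rfl fun m hm ↦ ?_
    rw [map_mul, map_pow, sig_of_mem_intC σ (qExpansion_HN_mem (hN N)),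
      (hc' m (by have := Finset.mem_range.mp hm; omega)).2]
  have hS' : ∀ q : Qt N, ∀ z, ∑ m ∈ Finset.range (n + 1), c' m z * hq N q z ^ m = 0 := by
    intro q z
    refine slash_poly (q.out)⁻¹ (fun m hm ↦ (hc' m hm).1.slash _) (fun z ↦ ?_) z
    have := congrFun hS z
    simpa [Finset.sum_apply] using this
  have hcn : c' n = 1 := by
    apply eq_of_qExpansion_eq one_pos (hc' n le_rfl).1.mem_QR (QR 1).one_mem
    rw [(hc' n le_rfl).2, cH_card, qExpansion_one, map_one]
  let E : Polynomial HolA := ∑ m : Fin n, Polynomial.monomial m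
    (⟨c' m, (hc' m m.2.le).1.holo⟩ - ⟨cH N m, (cH_isM1 m.2.le).holo⟩ : HolA)
  have hcoeff : ∀ m : Fin n, E.coeff m =
      (⟨c' m, (hc' m m.2.le).1.holo⟩ - ⟨cH N m, (cH_isM1 m.2.le).holo⟩ : HolA) := by
    intro m
    simp only [E, Polynomial.finsetSum_coeff, Polynomial.coeff_monomial]
    rw [Finset.sum_eq_single m]
    · simp
    · intro b _ hb
      rw [if_neg (fun h ↦ hb (Fin.ext h))]
    · simp
  have hE : E = 0 := by
    apply Polynomial.eq_zero_of_natDegree_lt_card_of_eval_eq_zero E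
      (f := fun q : Qt N ↦ (⟨hq N q, (hq_isFam N).holo q⟩ : HolA))
      (fun q q' h ↦ hq_injective (congrArg Subtype.val h))
    · intro q
      apply Subtype.ext
      ext z
      have e1 : ((E.eval (⟨hq N q, (hq_isFam N).holo q⟩ : HolA) : HolA) : ℍ → ℂ) z =
          ∑ m : Fin n, (c' m z - cH N m z) * hq N q z ^ (m : ℕ) := by
        simp only [E, Polynomial.eval_finsetSum, Polynomial.eval_monomial]
        rw [AddSubmonoidClass.coe_finsetSum, Finset.sum_apply]
        rfl
      rw [e1, Fin.sum_univ_eq_sum_range (fun m ↦ (c' m z - cH N m z) * hq N q z ^ m) n]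
      have e2 := hS' q z
      have e3 := sum_cH q z
      rw [← hn] at e3
      rw [Finset.sum_range_succ, hcn] at e2
      rw [Finset.sum_range_succ, cH_card] at e3
      simp only [sub_mul, Finset.sum_sub_distrib]
      change _ = (0 : ℂ)
      linear_combination e2 - e3
    · have hpos : 0 < n := Fintype.card_pos
      refine (Polynomial.natDegree_sum_le_of_forall_le (n := n - 1) _ _ fun m _ ↦
        (Polynomial.natDegree_monomial_le _).trans (by have := m.2; omega)).trans_lt
        (by omega)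
  rcases hm.lt_or_eq with hlt | rfl
  · have h1 := hcoeff ⟨m, hlt⟩
    rw [hE, Polynomial.coeff_zero] at h1
    have h2 := congrArg Subtype.val (sub_eq_zero.mp h1.symm)
    rw [← (hc' m hm).2]
    exact congrArg _ h2
  · rw [cH_card, qExpansion_one, map_one]

theorem cH_intC {m : ℕ} (hm : m ≤ Fintype.card (Qt N)) :
    qExpansion 1 (cH N m) ∈ PSub intC := by
  intro i
  obtain ⟨r, hr⟩ := exists_rat_of_forall_aut (coeff i (qExpansion 1 (cH N m))) fun σ ↦ by
    rw [← coeff_sig, sig_cH σ hm]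
  exact mem_intC_of_mem_algC (cH_algC hm i) hr

end

end Fermat.Agent.IntStr
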