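import Mathlib
import Fermat.Agent.IntStr.Rational

set_option autoImplicit false

namespace Fermat.Agent.IntStr

open UpperHalfPlane Function ModularForm PowerSeries CongruenceSubgroup Filter
open scoped Manifold Topology MatrixGroups ModularForm Real

noncomputable section

/-! ### Lagrange interpolation -/

/-- the interpolation expression -/
def UU {R : Type*} [CommRing R] (n : ℕ) (c : ℕ → R) (H : R) (g : ℕ → R) : R :=
  ∑ m ∈ Finset.range (n + 1), c m * ∑ i ∈ Finset.range m, H ^ i * g (m - 1 - i)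

theorem map_UU {R S : Type*} [CommRing R] [CommRing S] (φ : R →+* S) (n : ℕ) (c : ℕ → R) (H : R)
    (g : ℕ → R) : φ (UU n c H g) = UU n (fun m ↦ φ (c m)) (φ H) (fun t ↦ φ (g t)) := by
  simp only [UU, map_sum, map_mul, map_pow]

/-- divided differences of a monic split polynomial -/
theorem divided_difference {ι : Type*} [Fintype ι] [DecidableEq ι] (h : ι → ℂ) (q : ι) (x : ℂ) :
    ∑ m ∈ Finset.range (Fintype.card ι + 1),
      (∏ i, (Polynomial.X - Polynomial.C (h i))).coeff m *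
        ∑ i ∈ Finset.range m, x ^ i * h q ^ (m - 1 - i) =
      ∏ i ∈ Finset.univ.erase q, (x - h i) := by
  set P : Polynomial ℂ := ∏ i, (Polynomial.X - Polynomial.C (h i)) with hP
  set R : Polynomial ℂ := ∏ i ∈ Finset.univ.erase q, (Polynomial.X - Polynomial.C (h i)) with hR
  let DD : Polynomial ℂ := ∑ m ∈ Finset.range (Fintype.card ι + 1), Polynomial.C (P.coeff m) *
    ∑ i ∈ Finset.range m, Polynomial.X ^ i * (Polynomial.C (h q)) ^ (m - 1 - i)
  have hPR : P = (Polynomial.X - Polynomial.C (h q)) * R := by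
    rw [hP, hR]
    exact (Finset.mul_prod_erase Finset.univ
      (fun i ↦ (Polynomial.X - Polynomial.C (h i) : Polynomial ℂ)) (Finset.mem_univ q)).symm
  have hPq : P.eval (h q) = 0 := by rw [hPR]; simp
  have hPsum : P = ∑ m ∈ Finset.range (Fintype.card ι + 1),
      Polynomial.C (P.coeff m) * Polynomial.X ^ m := by
    have := P.as_sum_range_C_mul_X_pow' (n := Fintype.card ι + 1) (by simp [hP])
    exact this
  have hPsum' : ∑ m ∈ Finset.range (Fintype.card ι + 1), P.coeff m * h q ^ m = 0 := by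
    have := congrArg (Polynomial.eval (h q)) hPsum
    rw [hPq, Polynomial.eval_finsetSum] at this
    simpa using this.symm
  have hDD : (Polynomial.X - Polynomial.C (h q)) * DD = (Polynomial.X - Polynomial.C (h q)) * R := by
    rw [← hPR]
    have h1 : (Polynomial.X - Polynomial.C (h q)) * DD =
        ∑ m ∈ Finset.range (Fintype.card ι + 1), Polynomial.C (P.coeff m) *
          (Polynomial.X ^ m - (Polynomial.C (h q)) ^ m) := by
      rw [Finset.mul_sum]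
      refine Finset.sum_congr rfl fun m _ ↦ ?_
      rw [mul_left_comm, mul_comm (Polynomial.X - Polynomial.C (h q)),
        (Commute.all _ _).geom_sum₂_mul]
    rw [h1]
    simp only [mul_sub, Finset.sum_sub_distrib]
    rw [← hPsum]
    have h2 : ∑ m ∈ Finset.range (Fintype.card ι + 1), Polynomial.C (P.coeff m) *
        (Polynomial.C (h q)) ^ m = Polynomial.C (∑ m ∈ Finset.range (Fintype.card ι + 1),
          P.coeff m * h q ^ m) := by
      simp [map_sum]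
    rw [h2, hPsum', map_zero, sub_zero]
  have hDD' : DD = R := mul_left_cancel₀ (Polynomial.X_sub_C_ne_zero _) hDD
  have := congrArg (Polynomial.eval x) hDD'
  rw [hR, Polynomial.eval_prod] at this
  simpa [DD, Polynomial.eval_finsetSum] using this

theorem interpolation {ι : Type*} [Fintype ι] [DecidableEq ι] (h f : ι → ℂ) (q₀ : ι) :
    UU (Fintype.card ι) (fun m ↦ (∏ i, (Polynomial.X - Polynomial.C (h i))).coeff m) (h q₀)
      (fun t ↦ ∑ q, f q * h q ^ t) = f q₀ * ∏ i ∈ Finset.univ.erase q₀, (h q₀ - h i) := by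
  have h1 : UU (Fintype.card ι) (fun m ↦ (∏ i, (Polynomial.X - Polynomial.C (h i))).coeff m) (h q₀)
      (fun t ↦ ∑ q, f q * h q ^ t) = ∑ q, f q * ∏ i ∈ Finset.univ.erase q, (h q₀ - h i) := by
    simp_rw [← divided_difference h _ (h q₀)]
    simp only [UU, Finset.mul_sum]
    symm
    rw [Finset.sum_comm]
    refine Finset.sum_congr rfl fun m _ ↦ ?_
    rw [Finset.sum_comm]
    refine Finset.sum_congr rfl fun i _ ↦ Finset.sum_congr rfl fun q _ ↦ ?_
    ring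
  rw [h1, Finset.sum_eq_single q₀]
  · intro q _ hq
    rw [Finset.prod_eq_zero (i := q₀) (by simp [Ne.symm hq]) (sub_self _), mul_zero]
  · simp

theorem UU_mem {R : Type*} [CommRing R] (A : Subring R) {n : ℕ} {c : ℕ → R} {H : R} {g : ℕ → R}
    (hc : ∀ m ≤ n, c m ∈ A) (hH : H ∈ A) (hg : ∀ t, g t ∈ A) : UU n c H g ∈ A :=
  A.sum_mem fun m hm ↦ A.mul_mem (hc m (Nat.lt_succ_iff.mp (Finset.mem_range.mp hm)))
    (A.sum_mem fun i _ ↦ A.mul_mem (A.pow_mem hH i) (hg _))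

theorem UU_congr {R : Type*} [CommRing R] {n : ℕ} {c c' : ℕ → R} {H : R} {g : ℕ → R}
    (hc : ∀ m ≤ n, c m = c' m) : UU n c H g = UU n c' H g :=
  Finset.sum_congr rfl fun m hm ↦ by rw [hc m (Nat.lt_succ_iff.mp (Finset.mem_range.mp hm))]

theorem UU_apply {n : ℕ} {c : ℕ → ℍ → ℂ} {H : ℍ → ℂ} {g : ℕ → ℍ → ℂ} (z : ℍ) :
    UU n c H g z = UU n (fun m ↦ c m z) (H z) (fun t ↦ g t z) := by
  simp [UU, Finset.sum_apply]

theorem qExp_UU {n : ℕ} {c : ℕ → ℍ → ℂ} {H : ℍ → ℂ} {g : ℕ → ℍ → ℂ}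
    (hc : ∀ m ≤ n, c m ∈ QR 1) (hH : H ∈ QR 1) (hg : ∀ t, g t ∈ QR 1) :
    UU n c H g ∈ QR 1 ∧ qExpansion 1 (UU n c H g) =
      UU n (fun m ↦ qExpansion 1 (c m)) (qExpansion 1 H) (fun t ↦ qExpansion 1 (g t)) := by
  refine ⟨UU_mem (QR 1).toSubring hc hH hg, ?_⟩
  let c' : ℕ → ℍ → ℂ := fun m ↦ if m ≤ n then c m else 0
  have hc' : ∀ m, c' m ∈ QR 1 := by
    intro m
    simp only [c']
    split_ifs with h
    · exact hc m h
    · exact (QR 1).zero_mem
  have h1 : UU n c H g = UU n c' H g := UU_congr fun m hm ↦ by simp [c', hm]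
  have h2 : UU n c' H g = ((UU n (fun m ↦ (⟨c' m, hc' m⟩ : QR 1)) ⟨H, hH⟩
      (fun t ↦ ⟨g t, hg t⟩) : QR 1) : ℍ → ℂ) :=
    (map_UU (QR 1).val.toRingHom n (fun m ↦ (⟨c' m, hc' m⟩ : QR 1)) ⟨H, hH⟩
      (fun t ↦ ⟨g t, hg t⟩)).symm
  rw [h1, h2, ← qHom_apply one_pos]
  have h3 := map_UU (qHom 1 one_pos).toRingHom n (fun m ↦ (⟨c' m, hc' m⟩ : QR 1)) ⟨H, hH⟩
      (fun t ↦ ⟨g t, hg t⟩)
  refine (show _ = _ from h3).trans ?_
  exact UU_congr fun m hm ↦ by
    change qExpansion 1 (c' m) = _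
    simp [c', hm]

theorem UU_weight {n : ℕ} {k w : ℤ} {c : ℕ → ℍ → ℂ} {H : ℍ → ℂ} {g : ℕ → ℍ → ℂ} {z z' : ℍ}
    {j : ℂ} (hj : j ≠ 0) (hc : ∀ m ≤ n, c m z' = j ^ (((n : ℤ) - m) * w) * c m z)
    (hH : H z' = j ^ w * H z) (hg : ∀ t : ℕ, g t z' = j ^ (k + t * w) * g t z) :
    UU n c H g z' = j ^ (k + (n - 1) * w) * UU n c H g z := by
  rw [UU_apply, UU_apply, UU, UU, Finset.mul_sum]
  refine Finset.sum_congr rfl fun m hm ↦ ?_
  have hm' : m ≤ n := Nat.lt_succ_iff.mp (Finset.mem_range.mp hm)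
  rw [Finset.mul_sum, Finset.mul_sum, Finset.mul_sum]
  refine Finset.sum_congr rfl fun i hi ↦ ?_
  have hi' := Finset.mem_range.mp hi
  rw [hc m hm', hH, hg, mul_pow, ← zpow_natCast (j ^ w), ← zpow_mul]
  have : j ^ (((n : ℤ) - m) * w) * j ^ (w * i) * j ^ (k + ((m - 1 - i : ℕ) : ℤ) * w) =
      j ^ (k + ((n : ℤ) - 1) * w) := by
    rw [← zpow_add₀ hj, ← zpow_add₀ hj]
    congr 1
    have : ((m - 1 - i : ℕ) : ℤ) = m - 1 - i := by omega
    rw [this]
    ring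
  linear_combination (c m z * (H z ^ i * g (m - 1 - i) z)) * this

theorem slash_eq_iff {k : ℤ} {f : ℍ → ℂ} {γ : SL(2, ℤ)} {z : ℍ} {y : ℂ} :
    (f ∣[k] γ) z = y ↔ f (γ • z) = denom γ z ^ k * y := by
  rw [SL_slash_apply, zpow_neg, ← div_eq_mul_inv,
    div_eq_iff (zpow_ne_zero _ (denom_ne_zero γ z)), mul_comm y]

/-! ### The function `D` -/

variable {N : ℕ} [NeZero N]

open Classical in
variable (N) in
/-- the derivative of the characteristic polynomial of `H` at `H` -/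
def DH : ℍ → ℂ := fun z ↦
  ∏ q ∈ (Finset.univ : Finset (Qt N)).erase ((1 : SL(2, ℤ)) : Qt N), (HN N z - hq N q z)

theorem DH_eq : DH N = UU (Fintype.card (Qt N)) (cH N) (HN N) (fun t ↦ HN N ^ t) := by
  classical
  ext z
  rw [UU_apply, DH]
  have := divided_difference (fun q : Qt N ↦ hq N q z) ((1 : SL(2, ℤ)) : Qt N) (HN N z)
  simp only [hq_one] at this
  convert this.symm using 1
  rfl

theorem tendsto_DH : Tendsto (DH N) atImInfty (𝓝 1) := by
  classical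
  have h1 : (1 : ℂ) = ∏ q ∈ (Finset.univ : Finset (Qt N)).erase ((1 : SL(2, ℤ)) : Qt N),
      ((1 : ℂ) - 0) := by simp
  rw [h1]
  have := tendsto_finsetProd (f := fun (q : Qt N) (z : ℍ) ↦ HN N z - hq N q z)
    (x := atImInfty) (a := fun _ ↦ (1 : ℂ) - 0)
    ((Finset.univ : Finset (Qt N)).erase ((1 : SL(2, ℤ)) : Qt N))
    (fun q hq' ↦ (tendsto_HN (hN N)).sub (hq_tendsto (Finset.ne_of_mem_erase hq')))
  convert this using 2
  rfl

theorem DH_ne_zero : DH N ≠ 0 := by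
  intro h
  have h1 := tendsto_DH (N := N)
  rw [h] at h1
  exact zero_ne_one (tendsto_nhds_unique (tendsto_const_nhds (x := (0 : ℂ))) h1)

theorem cH_mem_QR {m : ℕ} (hm : m ≤ Fintype.card (Qt N)) : cH N m ∈ QR 1 := (cH_isM1 hm).mem_QR

theorem HN_mem_QR : HN N ∈ QR 1 := (isMN_HN (hN N)).mem_QR

theorem DH_mem_QR : DH N ∈ QR 1 := by
  rw [DH_eq]
  exact (qExp_UU (fun m hm ↦ cH_mem_QR hm) HN_mem_QR fun t ↦ (QR 1).pow_mem HN_mem_QR t).1

theorem qExpansion_DH_mem : qExpansion 1 (DH N) ∈ PSub intC := by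
  rw [DH_eq, (qExp_UU (fun m hm ↦ cH_mem_QR hm) HN_mem_QR
    fun t ↦ (QR 1).pow_mem HN_mem_QR t).2]
  refine UU_mem _ (fun m hm ↦ cH_intC hm) (qExpansion_HN_mem (hN N)) fun t ↦ ?_
  have := map_pow (qHom 1 one_pos) ⟨HN N, HN_mem_QR⟩ t
  rw [qHom_apply, qHom_apply] at this
  rw [show qExpansion 1 (HN N ^ t) = _ from this]
  exact (PSub intC).pow_mem (qExpansion_HN_mem (hN N)) t

theorem coeff_zero_DH : (qExpansion 1 (DH N)).coeff 0 = 1 := by
  rw [qExpansion_coeff_zero one_pos (QR.analyticAt one_pos DH_mem_QR) DH_mem_QR.1]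
  exact tendsto_DH.limUnder_eq

theorem HN_smul {γ : SL(2, ℤ)} (hγ : γ ∈ Gamma0 N) (z : ℍ) :
    HN N (γ • z) = denom γ z ^ wt N * HN N z :=
  slash_eq_iff.mp (congrFun (HN_slash_mem (hN N) hγ) z)

theorem IsM1.smul_eq {k : ℤ} {f : ℍ → ℂ} (hf : IsM1 k f) (γ : SL(2, ℤ)) (z : ℍ) :
    f (γ • z) = denom γ z ^ k * f z := slash_eq_iff.mp (congrFun (hf.slash γ) z)

theorem DH_smul {γ : SL(2, ℤ)} (hγ : γ ∈ Gamma0 N) (z : ℍ) :
    DH N (γ • z) = denom γ z ^ ((Fintype.card (Qt N) - 1 : ℤ) * wt N) * DH N z := by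
  rw [DH_eq, UU_weight (k := 0) (w := wt N) (denom_ne_zero γ z)
    (fun m hm ↦ (cH_isM1 hm).smul_eq γ z)
    (HN_smul hγ z) (fun t ↦ ?_), zero_add]
  rw [Pi.pow_apply, Pi.pow_apply, HN_smul hγ, mul_pow, ← zpow_natCast (denom γ z ^ wt N),
    ← zpow_mul, zero_add, mul_comm (t : ℤ)]

theorem interpolation_fun {k : ℤ} {f : ℍ → ℂ} (hf : IsMN N k f) :
    f * DH N = UU (Fintype.card (Qt N)) (cH N) (HN N) (fun t ↦ tr N k (wt N) f (HN N) t) := by
  classical
  ext z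
  rw [UU_apply, Pi.mul_apply, DH]
  have := interpolation (fun q : Qt N ↦ hq N q z) (fun q ↦ cj N k f q z) ((1 : SL(2, ℤ)) : Qt N)
  simp only [hq_one, cj_one hf.slash] at this
  rw [show (fun t ↦ tr N k (wt N) f (HN N) t z) = fun t ↦ ∑ q, cj N k f q z * hq N q z ^ t by
    ext t; simp [tr, hq, Finset.sum_apply]]
  convert this.symm using 1
  rfl

end

end Fermat.Agent.IntStr
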