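import Mathlib
import Fermat.Agent.IntStr.AutC

set_option autoImplicit false

namespace Fermat.Agent.IntStr

open Module Submodule

/-- A finite-dimensional space of sequences has a basis dual to finitely many coordinates. -/
theorem exists_coord_basis (V : Submodule ℂ (ℕ → ℂ)) [FiniteDimensional ℂ V] :
    ∃ (κ : Type) (_ : Fintype κ) (_ : DecidableEq κ) (a : κ → ℕ) (b : Basis κ ℂ V),
      ∀ i j, (b i : ℕ → ℂ) (a j) = if i = j then 1 else 0 := by
  classical
  let φ : ℕ → Dual ℂ V := fun n ↦ (LinearMap.proj n).comp V.subtype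
  have hspan : span ℂ (Set.range φ) = ⊤ := by
    apply span_eq_top_of_ne_zero
    intro z hz
    by_contra! hcon
    apply hz
    ext n
    exact hcon (φ n) ⟨n, rfl⟩
  obtain ⟨κ, a, ha, hsp, hli⟩ := exists_linearIndependent' ℂ φ
  rw [hspan] at hsp
  let B : Basis κ ℂ (Dual ℂ V) := Basis.mk hli hsp.ge
  have : Finite κ := Module.Finite.finite_basis B
  have := Fintype.ofFinite κ
  refine ⟨κ, this, inferInstance, a, B.dualBasis.map (evalEquiv ℂ V).symm, fun i j ↦ ?_⟩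
  have h1 : (((B.dualBasis.map (evalEquiv ℂ V).symm) i : V) : ℕ → ℂ) (a j) =
      φ (a j) ((B.dualBasis.map (evalEquiv ℂ V).symm) i) := rfl
  rw [h1, Basis.map_apply, apply_evalEquiv_symm_apply]
  have h2 : φ (a j) = B j := by simp [B]
  rw [h2, Basis.dualBasis_apply_self]
  congr 1
  exact propext eq_comm

/-- Galois descent for spaces of sequences. -/
theorem le_span_rational (V : Submodule ℂ (ℕ → ℂ)) [FiniteDimensional ℂ V]
    (hσ : ∀ σ : ℂ ≃+* ℂ, ∀ v ∈ V, (fun n ↦ σ (v n)) ∈ V) :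
    V ≤ span ℂ {v | v ∈ V ∧ ∀ n, ∃ r : ℚ, (r : ℂ) = v n} := by
  obtain ⟨κ, _, _, a, b, hb⟩ := exists_coord_basis V
  have hexp : ∀ x : V, (x : ℕ → ℂ) = ∑ i, b.repr x i • (b i : ℕ → ℂ) := by
    intro x
    have := congrArg Subtype.val (b.sum_repr x)
    rw [Submodule.coe_sum] at this
    exact this.symm
  have key : ∀ i, (b i : ℕ → ℂ) ∈ {v | v ∈ V ∧ ∀ n, ∃ r : ℚ, (r : ℂ) = v n} := by
    intro i
    refine ⟨(b i).2, fun n ↦ exists_rat_of_forall_aut _ fun σ ↦ ?_⟩
    let w : V := ⟨fun n ↦ σ ((b i : ℕ → ℂ) n), hσ σ _ (b i).2⟩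
    have hw : w = b i := by
      have hrep : ∀ (x : V) (j : κ), b.repr x j = (x : ℕ → ℂ) (a j) := by
        intro x j
        rw [hexp x, Finset.sum_apply]
        simp [hb]
      apply b.ext_elem
      intro j
      rw [hrep, hrep]
      simp only [w, hb]
      split_ifs <;> simp
    exact congrFun (congrArg Subtype.val hw) n
  intro v hv
  rw [show v = _ from hexp ⟨v, hv⟩]
  exact Submodule.sum_mem _ fun i _ ↦ Submodule.smul_mem _ _ (subset_span (key i))

/-- A `ℚ`-linear retraction of `ℚ → ℂ`. -/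
theorem exists_retraction : ∃ π : ℂ →ₗ[ℚ] ℚ, ∀ r : ℚ, π (r : ℂ) = r := by
  obtain ⟨g, hg⟩ := LinearMap.exists_leftInverse_of_injective (Algebra.linearMap ℚ ℂ)
    (LinearMap.ker_eq_bot.mpr (algebraMap ℚ ℂ).injective)
  exact ⟨g, fun r ↦ by simpa using congrArg (fun f ↦ f r) hg⟩

/-- A rational sequence in the complex span of finitely many integral sequences has bounded
denominators. -/
theorem exists_bounded_denominator {ι : Type*} (s : Finset ι) (w : ι → ℕ → ℤ) (c : ι → ℂ)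
    (v : ℕ → ℚ) (hv : ∀ n, (v n : ℂ) = ∑ i ∈ s, c i * (w i n : ℂ)) :
    ∃ M : ℕ, M ≠ 0 ∧ ∀ n, ∃ m : ℤ, (M : ℚ) * v n = m := by
  obtain ⟨π, hπ⟩ := exists_retraction
  have h1 : ∀ n, v n = ∑ i ∈ s, π (c i) * (w i n : ℚ) := by
    intro n
    have h := congrArg π (hv n)
    rw [hπ, map_sum] at h
    rw [h]
    refine Finset.sum_congr rfl fun i _ ↦ ?_
    have : c i * (w i n : ℂ) = (w i n : ℚ) • c i := by
      rw [Algebra.smul_def]; simp [mul_comm]
    rw [this, map_smul, smul_eq_mul, mul_comm]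
  refine ⟨∏ i ∈ s, (π (c i)).den, Finset.prod_ne_zero_iff.mpr fun i _ ↦ (π (c i)).den_nz,
    fun n ↦ ?_⟩
  classical
  refine ⟨∑ i ∈ s, (∏ j ∈ s.erase i, ((π (c j)).den : ℤ)) * (π (c i)).num * w i n, ?_⟩
  rw [h1, Finset.mul_sum]
  push_cast
  refine Finset.sum_congr rfl fun i hi ↦ ?_
  rw [← Finset.prod_erase_mul s _ hi]
  have : (π (c i)) * ((π (c i)).den : ℚ) = (π (c i)).num := Rat.mul_den_eq_num _
  linear_combination (∏ j ∈ s.erase i, ((π (c j)).den : ℚ)) * (w i n : ℚ) * this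

end Fermat.Agent.IntStr
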