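import Mathlib

set_option autoImplicit false

namespace Fermat.Agent.IntStr

open UpperHalfPlane Function Filter Finset
open scoped Manifold Topology

/-- crude root bound -/
theorem norm_le_of_monic_eq_zero {n : ℕ} {x : ℂ} {a : ℕ → ℂ}
    (h : x ^ n + ∑ m ∈ range n, a m * x ^ m = 0) : ‖x‖ ≤ 1 + ∑ m ∈ range n, ‖a m‖ := by
  by_contra! hcon
  have h1 : 1 < ‖x‖ := lt_of_le_of_lt (le_add_of_nonneg_right
    (Finset.sum_nonneg fun i _ ↦ norm_nonneg _)) hcon
  rcases Nat.eq_zero_or_pos n with rfl | hn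
  · simp at h
  have h2 : x ^ n = - ∑ m ∈ range n, a m * x ^ m := eq_neg_of_add_eq_zero_left h
  have h3 : ‖x‖ ^ n ≤ ∑ m ∈ range n, ‖a m‖ * ‖x‖ ^ (n - 1) := by
    rw [← norm_pow, h2, norm_neg]
    refine (norm_sum_le _ _).trans (Finset.sum_le_sum fun m hm ↦ ?_)
    rw [norm_mul, norm_pow]
    exact mul_le_mul_of_nonneg_left (pow_le_pow_right₀ h1.le
      (by have := Finset.mem_range.mp hm; omega)) (norm_nonneg _)
  rw [← Finset.sum_mul] at h3
  obtain ⟨k, rfl⟩ : ∃ k, n = k + 1 := ⟨n - 1, by omega⟩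
  rw [pow_succ, mul_comm] at h3
  simp only [Nat.add_sub_cancel] at h3
  have h4 := le_of_mul_le_mul_right h3 (by positivity)
  linarith

/-- roots of monic polynomials tend to zero if the coefficients do -/
theorem tendsto_zero_of_monic_eq_zero {α : Type*} {l : Filter α} {n : ℕ} {x : α → ℂ}
    {a : ℕ → α → ℂ} (ha : ∀ m < n, Tendsto (a m) l (𝓝 0))
    (h : ∀ z, x z ^ n + ∑ m ∈ range n, a m z * x z ^ m = 0) : Tendsto x l (𝓝 0) := by
  rw [NormedAddGroup.tendsto_nhds_zero]
  intro ε hε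
  rcases Nat.eq_zero_or_pos n with rfl | hn
  · refine Eventually.of_forall fun z ↦ ?_
    have := h z
    simp at this
  have hev : ∀ᶠ z in l, ∀ m ∈ range n, ‖a m z‖ < ε ^ (n - m) / n := by
    rw [Filter.eventually_all_finset]
    intro m hm
    exact (NormedAddGroup.tendsto_nhds_zero.mp (ha m (Finset.mem_range.mp hm))) _
      (by positivity)
  filter_upwards [hev] with z hz
  by_contra! hcon
  have h0 : 0 < ‖x z‖ := hε.trans_le hcon
  have h2 : x z ^ n = - ∑ m ∈ range n, a m z * x z ^ m := eq_neg_of_add_eq_zero_left (h z)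
  have h3 : ‖x z‖ ^ n < ∑ m ∈ range n, ‖x z‖ ^ n / n := by
    calc ‖x z‖ ^ n = ‖∑ m ∈ range n, a m z * x z ^ m‖ := by rw [← norm_pow, h2, norm_neg]
      _ ≤ ∑ m ∈ range n, ‖a m z * x z ^ m‖ := norm_sum_le _ _
      _ < ∑ m ∈ range n, ‖x z‖ ^ n / n := by
        refine Finset.sum_lt_sum_of_nonempty ⟨0, Finset.mem_range.mpr hn⟩ fun m hm ↦ ?_
        rw [norm_mul, norm_pow]
        have hm' := Finset.mem_range.mp hm
        calc ‖a m z‖ * ‖x z‖ ^ m < ε ^ (n - m) / n * ‖x z‖ ^ m :=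
              mul_lt_mul_of_pos_right (hz m hm) (by positivity)
          _ ≤ ‖x z‖ ^ (n - m) / n * ‖x z‖ ^ m := by gcongr
          _ = ‖x z‖ ^ n / n := by
            rw [div_mul_eq_mul_div, ← pow_add]
            congr 3
            omega
  rw [Finset.sum_const, Finset.card_range, nsmul_eq_mul,
    mul_div_cancel₀ _ (by positivity)] at h3
  exact lt_irrefl _ h3

/-- If `u / D` is integral over holomorphic functions then `D` divides `u`. -/
theorem exists_quotient {n : ℕ} {u D : ℍ → ℂ} (hu : MDiff u) (hD : MDiff D) (hD0 : D ≠ 0)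
    (a : ℕ → ℍ → ℂ) (ha : ∀ m < n, MDiff (a m))
    (h : ∀ z, u z ^ n + ∑ m ∈ range n, a m z * u z ^ m * D z ^ (n - m) = 0) :
    ∃ g : ℍ → ℂ, MDiff g ∧ u = g * D := by
  set U : Set ℂ := upperHalfPlaneSet with hU
  have hUo : IsOpen U := isOpen_upperHalfPlaneSet
  have hUc : IsPreconnected U := Convex.isPreconnected (convex_halfSpace_im_gt 0)
  have hu' : AnalyticOnNhd ℂ (u ∘ ofComplex) U :=
    (UpperHalfPlane.mdifferentiable_iff.mp hu).analyticOnNhd hUo
  have hD' : AnalyticOnNhd ℂ (D ∘ ofComplex) U :=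
    (UpperHalfPlane.mdifferentiable_iff.mp hD).analyticOnNhd hUo
  have ha' : ∀ m < n, AnalyticOnNhd ℂ (a m ∘ ofComplex) U := fun m hm ↦
    (UpperHalfPlane.mdifferentiable_iff.mp (ha m hm)).analyticOnNhd hUo
  set φ : ℂ → ℂ := (u ∘ ofComplex) / (D ∘ ofComplex) with hφ
  have hφm : MeromorphicOn φ U := fun x hx ↦ (hu' x hx).meromorphicAt.div (hD' x hx).meromorphicAt
  have hDne : ∀ x ∈ U, ∀ᶠ z in 𝓝[≠] x, (D ∘ ofComplex) z ≠ 0 := by
    intro x hx
    rcases (hD' x hx).eventually_eq_zero_or_eventually_ne_zero with h0 | h0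
    · exfalso
      apply hD0
      have := hD'.eqOn_zero_of_preconnected_of_eventuallyEq_zero hUc hx h0
      ext z
      have hz := this z.2
      simpa using hz
    · exact h0
  have hord : ∀ x ∈ U, 0 ≤ meromorphicOrderAt φ x := by
    intro x hx
    by_contra! hneg
    have hcob := tendsto_cobounded_of_meromorphicOrderAt_neg hneg
    rw [← tendsto_norm_atTop_iff_cobounded] at hcob
    have hcont : ContinuousAt (fun z ↦ 1 + ∑ m ∈ range n, ‖(a m ∘ ofComplex) z‖) x := by
      refine continuousAt_const.add (tendsto_finsetSum _ fun m hm ↦ ?_)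
      exact (ha' m (Finset.mem_range.mp hm) x hx).continuousAt.norm
    have hlt : ∀ᶠ z in 𝓝[≠] x, 1 + ∑ m ∈ range n, ‖(a m ∘ ofComplex) z‖ <
        (1 + ∑ m ∈ range n, ‖(a m ∘ ofComplex) x‖) + 1 :=
      (hcont.eventually (gt_mem_nhds (lt_add_one _))).filter_mono nhdsWithin_le_nhds
    have hbig := hcob.eventually (eventually_ge_atTop
      ((1 + ∑ m ∈ range n, ‖(a m ∘ ofComplex) x‖) + 1))
    obtain ⟨z, hz1, hz2, hz3⟩ := (hlt.and (hbig.and (hDne x hx))).exists
    have hz4 : φ z ^ n + ∑ m ∈ range n, (a m ∘ ofComplex) z * φ z ^ m = 0 := by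
      have hh := h (ofComplex z)
      have hDz : D (ofComplex z) ≠ 0 := hz3
      have : φ z ^ n + ∑ m ∈ range n, (a m ∘ ofComplex) z * φ z ^ m =
          (u (ofComplex z) ^ n + ∑ m ∈ range n, a m (ofComplex z) * u (ofComplex z) ^ m *
            D (ofComplex z) ^ (n - m)) / D (ofComplex z) ^ n := by
        rw [add_div, Finset.sum_div]
        congr 1
        · simp [φ, div_pow]
        · refine Finset.sum_congr rfl fun m hm ↦ ?_
          have hm' := Finset.mem_range.mp hm
          simp only [φ, comp_apply, Pi.div_apply, div_pow]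
          rw [show D (ofComplex z) ^ n = D (ofComplex z) ^ m * D (ofComplex z) ^ (n - m) by
            rw [← pow_add]; congr 1; omega]
          field_simp
      rw [this, hh, zero_div]
    exact absurd (norm_le_of_monic_eq_zero hz4) (not_le.mpr (hz1.trans_le hz2))
  set g' : ℂ → ℂ := toMeromorphicNFOn φ U with hg'
  have hg'an : ∀ x ∈ U, AnalyticAt ℂ g' x := by
    intro x hx
    have hnf := meromorphicNFOn_toMeromorphicNFOn φ U hx
    rw [← hnf.meromorphicOrderAt_nonneg_iff_analyticAt,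
      meromorphicOrderAt_toMeromorphicNFOn hφm hx]
    exact hord x hx
  refine ⟨fun z ↦ g' z, ?_, ?_⟩
  · rw [UpperHalfPlane.mdifferentiable_iff]
    refine DifferentiableOn.congr (f := g') (fun x hx ↦
      (hg'an x hx).differentiableAt.differentiableWithinAt) fun z hz ↦ ?_
    simp [ofComplex_apply_of_im_pos hz]
  · ext z
    have hz : (z : ℂ) ∈ U := z.2
    have h1 : (u ∘ ofComplex) =ᶠ[𝓝[≠] (z : ℂ)] g' * (D ∘ ofComplex) := by
      filter_upwards [hφm.toMeromorphicNFOn_eq_self_on_nhdsNE hz, hDne z hz] with y hy hy'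
      rw [Pi.mul_apply, hg', hy, hφ, Pi.div_apply, div_mul_cancel₀ _ hy']
    have h2 := (ContinuousAt.eventuallyEq_nhds_iff_eventuallyEq_nhdsNE
      (hu' z hz).continuousAt ((hg'an z hz).continuousAt.mul (hD' z hz).continuousAt)).mp h1
    have := h2.eq_of_nhds
    simpa using this

end Fermat.Agent.IntStr
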