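import Mathlib
import Fermat.Agent.IntStr.Interp
import Fermat.Agent.IntStr.Removable
import Fermat.Agent.IntStr.LinAlg

set_option autoImplicit false

namespace Fermat.Agent.IntStr

open UpperHalfPlane Function ModularForm PowerSeries CongruenceSubgroup Filter
open scoped Manifold Topology MatrixGroups ModularForm Real

noncomputable section

theorem IsM1.isS1_of_coeff_zero {k : ℤ} {f : ℍ → ℂ} (hf : IsM1 k f)
    (h : (qExpansion 1 f).coeff 0 = 0) : IsS1 k f := by
  have h1 : (qExpansion 1 hf.form).coeff 0 = 0 := h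
  exact isS1_coe (toCuspForm hf.form h1)

theorem IsS1.coeff_zero {k : ℤ} {f : ℍ → ℂ} (hf : IsS1 k f) : (qExpansion 1 f).coeff 0 = 0 :=
  CuspFormClass.qExpansion_coeff_zero hf.form one_pos one_mem_strictPeriods_SL

theorem isBounded_of_monic {n : ℕ} {x : ℍ → ℂ} {a : ℕ → ℍ → ℂ}
    (ha : ∀ m < n, IsBoundedAtImInfty (a m))
    (h : ∀ z, x z ^ n + ∑ m ∈ Finset.range n, a m z * x z ^ m = 0) : IsBoundedAtImInfty x := by
  have h1 : (fun z ↦ 1 + ∑ m ∈ Finset.range n, ‖a m z‖) =O[atImInfty] (1 : ℍ → ℝ) := by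
    refine Asymptotics.IsBigO.add (Asymptotics.isBigO_refl _ _) ?_
    refine Asymptotics.IsBigO.fun_sum fun m hm ↦ ?_
    exact (ha m (Finset.mem_range.mp hm)).norm_left
  refine Asymptotics.IsBigO.trans ?_ h1
  refine Asymptotics.IsBigO.of_bound 1 (Eventually.of_forall fun z ↦ ?_)
  rw [one_mul]
  exact (norm_le_of_monic_eq_zero (h z)).trans (le_abs_self _)

variable {N : ℕ} [NeZero N]

theorem IsMN.exists_conj (σ : ℂ ≃+* ℂ) {k : ℤ} {f : ℍ → ℂ} (hf : IsMN N k f) :
    ∃ g, IsMN N k g ∧ qExpansion 1 g = sig σ (qExpansion 1 f) ∧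
      (IsCuspidal k f → IsCuspidal k g) := by
  set n := Fintype.card (Qt N) with hn
  -- conjugating the traces
  have htr := fun t ↦ isM1_tr hf (isMN_HN (hN N)) t
  choose g' hg' using fun t ↦ (htr t).exists_conj σ
  set u := UU n (cH N) (HN N) g' with hu
  obtain ⟨huQ, huq⟩ := qExp_UU (n := n) (c := cH N) (H := HN N) (g := g')
    (fun m hm ↦ cH_mem_QR hm) HN_mem_QR (fun t ↦ (hg' t).1.mem_QR)
  rw [← hu] at huQ huq
  have huq' : qExpansion 1 u = sig σ (qExpansion 1 f) * qExpansion 1 (DH N) := by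
    have h1 : qExpansion 1 (f * DH N) = qExpansion 1 f * qExpansion 1 (DH N) :=
      qExp_mul hf.mem_QR DH_mem_QR
    rw [interpolation_fun hf, (qExp_UU (n := n) (c := cH N) (H := HN N)
      (fun m hm ↦ cH_mem_QR hm) HN_mem_QR (fun t ↦ (htr t).mem_QR)).2] at h1
    have h2 := congrArg (sig σ) h1
    rw [map_mul, map_UU, sig_of_mem_intC σ qExpansion_DH_mem] at h2
    rw [← h2, huq]
    rw [sig_of_mem_intC σ (qExpansion_HN_mem (hN N))]
    simp only [(hg' _).2]
    exact UU_congr fun m hm ↦ (sig_cH σ hm).symm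
  -- conjugating the characteristic polynomial
  have hfam := hf.isFam
  have hex : ∀ m, ∃ g, m ≤ n → IsM1 (((n : ℤ) - m) * k) g ∧
      qExpansion 1 g = sig σ (qExpansion 1 (cf (cj N k f) m)) := by
    intro m
    by_cases hm : m ≤ n
    · obtain ⟨g, hg⟩ := (hfam.isM1_cf hm).exists_conj σ
      exact ⟨g, fun _ ↦ hg⟩
    · exact ⟨0, fun h ↦ absurd h hm⟩
  choose a' ha' using hex
  have han : a' n = 1 := by
    apply eq_of_qExpansion_eq one_pos (ha' n le_rfl).1.mem_QR (QR 1).one_mem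
    rw [(ha' n le_rfl).2, cf_card, qExpansion_one, map_one]
  have hrelq : ∑ m ∈ Finset.range (n + 1), qExpansion 1 (a' m) * (sig σ (qExpansion 1 f)) ^ m =
      0 := by
    obtain ⟨h3, h4⟩ := qExp_poly (n := n + 1) (A := cf (cj N k f)) (B := f)
      (fun m hm ↦ (hfam.isM1_cf (m := m) (by omega)).mem_QR) hf.mem_QR
    have h5 : ∑ m ∈ Finset.range (n + 1), cf (cj N k f) m * f ^ m = 0 := by
      ext z
      have := sum_cf (cj N k f) z (f z)
      rw [Finset.prod_eq_zero (Finset.mem_univ ((1 : SL(2, ℤ)) : Qt N))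
        (by rw [cj_one hf.slash, sub_self])] at this
      simpa [Finset.sum_apply] using this
    rw [h5, qExpansion_zero] at h4
    have h6 := congrArg (sig σ) h4
    rw [map_zero, map_sum] at h6
    rw [h6]
    refine Finset.sum_congr rfl fun m hm ↦ ?_
    rw [map_mul, map_pow, (ha' m (by have := Finset.mem_range.mp hm; omega)).2]
  have hrel : ∑ m ∈ Finset.range (n + 1), a' m * DH N ^ (n - m) * u ^ m = 0 := by
    have hA : ∀ m < n + 1, a' m * DH N ^ (n - m) ∈ QR 1 := fun m hm ↦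
      (QR 1).mul_mem (ha' m (by omega)).1.mem_QR ((QR 1).pow_mem DH_mem_QR _)
    obtain ⟨h3, h4⟩ := qExp_poly (n := n + 1) (A := fun m ↦ a' m * DH N ^ (n - m)) (B := u)
      hA huQ
    apply eq_of_qExpansion_eq one_pos h3 (QR 1).zero_mem
    rw [h4, qExpansion_zero]
    have h5 : ∀ m ∈ Finset.range (n + 1), qExpansion 1 (a' m * DH N ^ (n - m)) *
        qExpansion 1 u ^ m = (qExpansion 1 (a' m) * (sig σ (qExpansion 1 f)) ^ m) *
          qExpansion 1 (DH N) ^ n := by
      intro m hm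
      have hm' : m ≤ n := Nat.lt_succ_iff.mp (Finset.mem_range.mp hm)
      rw [qExp_mul (ha' m hm').1.mem_QR ((QR 1).pow_mem DH_mem_QR _), huq', mul_pow]
      have h6 := map_pow (qHom 1 one_pos) ⟨DH N, DH_mem_QR⟩ (n - m)
      rw [qHom_apply, qHom_apply] at h6
      rw [show qExpansion 1 (DH N ^ (n - m)) = _ from h6]
      have h7 : qExpansion 1 (DH N) ^ n = qExpansion 1 (DH N) ^ (n - m) *
          qExpansion 1 (DH N) ^ m := by rw [← pow_add]; congr 1; omega
      rw [h7]
      ring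
    rw [Finset.sum_congr rfl h5, ← Finset.sum_mul, hrelq, zero_mul]
  -- dividing
  obtain ⟨g, hg, hgu⟩ := exists_quotient (n := n) huQ.2.1 (DH_mem_QR (N := N)).2.1 DH_ne_zero a'
    (fun m hm ↦ (ha' m hm.le).1.holo) (fun z ↦ by
      have := congrFun hrel z
      rw [Finset.sum_apply, Finset.sum_range_succ, han] at this
      simp only [Pi.mul_apply, Pi.pow_apply, Nat.sub_self, pow_zero, Pi.one_apply, one_mul,
        Pi.zero_apply] at this
      rw [add_comm, ← this]
      congr 1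
      refine Finset.sum_congr rfl fun m _ ↦ by ring)
  have hgrel : ∑ m ∈ Finset.range (n + 1), a' m * g ^ m = 0 := by
    have h1 : (∑ m ∈ Finset.range (n + 1), a' m * g ^ m) * DH N ^ n = 0 := by
      rw [← hrel, Finset.sum_mul]
      refine Finset.sum_congr rfl fun m hm ↦ ?_
      have hm' : m ≤ n := Nat.lt_succ_iff.mp (Finset.mem_range.mp hm)
      have h7 : DH N ^ n = DH N ^ (n - m) * DH N ^ m := by rw [← pow_add]; congr 1; omega
      rw [h7, hgu]
      ring
    rcases (UpperHalfPlane.mul_eq_zero_iff (HolA.sum_mem fun m hm ↦ HolA.mul_mem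
      (ha' m (Nat.lt_succ_iff.mp (Finset.mem_range.mp hm))).1.holo (HolA.pow_mem hg m))
      (HolA.pow_mem (DH_mem_QR (N := N)).2.1 n)).mp h1 with h2 | h2
    · exact h2
    · exfalso
      apply DH_ne_zero (N := N)
      ext z
      exact (pow_eq_zero_iff (Fintype.card_ne_zero (α := Qt N))).mp (congrFun h2 z)
  have hgrel' : ∀ γ : SL(2, ℤ), ∀ z, (g ∣[k] γ) z ^ n +
      ∑ m ∈ Finset.range n, a' m z * (g ∣[k] γ) z ^ m = 0 := by
    intro γ z
    have := slash_poly (n := n) (A := a') (B := g) γ (fun m hm ↦ (ha' m hm).1.slash γ)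
      (fun z ↦ by simpa [Finset.sum_apply] using congrFun hgrel z) z
    rw [Finset.sum_range_succ, han] at this
    rw [add_comm]
    simpa using this
  have hMN : IsMN N k g := by
    refine ⟨fun γ hγ ↦ ?_, hg, fun γ ↦ ?_⟩
    · have h1 : (g ∣[k] γ - g) * DH N = 0 := by
        ext z
        have hj := denom_ne_zero γ z
        have e1 : u (γ • z) = denom γ z ^ (k + ((n : ℤ) - 1) * wt N) * u z :=
          UU_weight hj (fun m hm ↦ (cH_isM1 hm).smul_eq γ z) (HN_smul hγ z)
            (fun t ↦ (hg' t).1.smul_eq γ z)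
        rw [hgu, Pi.mul_apply, Pi.mul_apply, DH_smul hγ, zpow_add₀ hj] at e1
        have e2 := (slash_eq_iff (k := k) (f := g) (γ := γ) (z := z)).mp rfl
        rw [e2] at e1
        simp only [Pi.mul_apply, Pi.sub_apply, Pi.zero_apply]
        have hj1 : denom γ z ^ k ≠ 0 := zpow_ne_zero _ hj
        have hj2 : denom γ z ^ (((n : ℤ) - 1) * wt N) ≠ 0 := zpow_ne_zero _ hj
        apply mul_left_cancel₀ (mul_ne_zero hj1 hj2)
        linear_combination e1
      rcases (UpperHalfPlane.mul_eq_zero_iff (HolA.sub_mem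
        (MDifferentiable.slash hg k _) hg) (DH_mem_QR (N := N)).2.1).mp h1 with h2 | h2
      · exact sub_eq_zero.mp h2
      · exact absurd h2 DH_ne_zero
    · exact isBounded_of_monic (fun m hm ↦ (ha' m hm.le).1.bdd) (hgrel' γ)
  refine ⟨g, hMN, ?_, fun hcusp γ ↦ ?_⟩
  · have h1 : qExpansion 1 g * qExpansion 1 (DH N) =
        sig σ (qExpansion 1 f) * qExpansion 1 (DH N) := by
      rw [← huq', hgu, qExp_mul hMN.mem_QR DH_mem_QR]
    refine mul_right_cancel₀ ?_ h1
    intro h0
    have := coeff_zero_DH (N := N)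
    rw [h0, map_zero] at this
    exact zero_ne_one this
  · refine tendsto_zero_of_monic_eq_zero (fun m hm ↦ ?_) (hgrel' γ)
    refine ((ha' m hm.le).1.isS1_of_coeff_zero ?_).zero
    rw [(ha' m hm.le).2, coeff_sig, (hfam.isS1_cf (fun q ↦ hcusp _) hm).coeff_zero, map_zero]

end

end Fermat.Agent.IntStr
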