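import Mathlib
import Fermat.Agent.IntStr.Descent
import Fermat.Prelude.Thm_ModularForm_sturm_bound_Gamma0
import Fermat.Prelude.Def_CuspForm_IntegralStructure

set_option autoImplicit false

namespace Fermat.Agent.IntStr

open UpperHalfPlane Function ModularForm PowerSeries CongruenceSubgroup Filter
open scoped Manifold Topology MatrixGroups ModularForm Real

noncomputable section

/-- complex span of integral power series -/
def SpanZ : Submodule ℂ (PowerSeries ℂ) := Submodule.span ℂ (PSub intC : Set (PowerSeries ℂ))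

theorem mul_mem_SpanZ {F G : PowerSeries ℂ} (hF : F ∈ PSub intC) (hG : G ∈ SpanZ) :
    F * G ∈ SpanZ := by
  induction hG using Submodule.span_induction with
  | mem x hx => exact Submodule.subset_span ((PSub intC).mul_mem hF hx)
  | zero => rw [mul_zero]; exact Submodule.zero_mem _
  | add x y _ _ hx hy => rw [mul_add]; exact Submodule.add_mem _ hx hy
  | smul c x _ hx => rw [mul_smul_comm]; exact Submodule.smul_mem _ _ hx

theorem UU_mem_SpanZ {n : ℕ} {c : ℕ → PowerSeries ℂ} {H : PowerSeries ℂ}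
    {g : ℕ → PowerSeries ℂ} (hc : ∀ m ≤ n, c m ∈ PSub intC) (hH : H ∈ PSub intC)
    (hg : ∀ t, g t ∈ SpanZ) : UU n c H g ∈ SpanZ :=
  Submodule.sum_mem _ fun m hm ↦ mul_mem_SpanZ (hc m (Nat.lt_succ_iff.mp (Finset.mem_range.mp hm)))
    (Submodule.sum_mem _ fun i _ ↦ mul_mem_SpanZ ((PSub intC).pow_mem hH i) (hg _))

theorem IsM1.mem_SpanZ {k : ℤ} {f : ℍ → ℂ} (hf : IsM1 k f) : qExpansion 1 f ∈ SpanZ := by
  suffices h : f ∈ QR 1 ∧ qExpansion 1 f ∈ SpanZ from h.2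
  have hmem := M1_mem_span k f hf
  clear hf
  induction hmem using Submodule.span_induction with
  | mem x hx => exact ⟨hx.1.mem_QR, Submodule.subset_span hx.2⟩
  | zero => exact ⟨(QR 1).zero_mem, by rw [qExpansion_zero]; exact Submodule.zero_mem _⟩
  | add x y _ _ hx hy =>
    exact ⟨(QR 1).add_mem hx.1 hy.1, by
      rw [qExp_add hx.1 hy.1]; exact Submodule.add_mem _ hx.2 hy.2⟩
  | smul c x _ hx =>
    exact ⟨(QR 1).smul_mem hx.1 c, by
      rw [qExp_smul hx.1]; exact Submodule.smul_mem _ _ hx.2⟩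

/-- bounded denominators in `SpanZ` -/
theorem bounded_of_mem_SpanZ {F : PowerSeries ℂ} (hF : F ∈ SpanZ)
    (hr : ∀ n, ∃ r : ℚ, (r : ℂ) = coeff n F) :
    ∃ M : ℕ, M ≠ 0 ∧ (M : ℂ) • F ∈ PSub intC := by
  rw [SpanZ, Submodule.mem_span_set] at hF
  obtain ⟨c, hc, hsum⟩ := hF
  choose v hv using hr
  have hint : ∀ i : PowerSeries ℂ, ∃ w : ℕ → ℤ, i ∈ c.support → ∀ n, (w n : ℂ) = coeff n i := by
    intro i
    by_cases hi : i ∈ c.support
    · choose w hw using fun n ↦ mem_intC.mp (hc hi n)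
      exact ⟨w, fun _ ↦ hw⟩
    · exact ⟨0, fun h ↦ absurd h hi⟩
  choose w hw using hint
  obtain ⟨M, hM, hM'⟩ := exists_bounded_denominator c.support w c v (fun n ↦ by
    rw [hv n, ← hsum, Finsupp.sum, map_sum]
    refine Finset.sum_congr rfl fun i hi ↦ ?_
    rw [PowerSeries.coeff_smul, hw i hi n, smul_eq_mul])
  refine ⟨M, hM, fun n ↦ ?_⟩
  obtain ⟨m, hm⟩ := hM' n
  rw [PowerSeries.coeff_smul, ← hv n, smul_eq_mul]
  have := congrArg (fun x : ℚ ↦ (x : ℂ)) hm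
  push_cast at this
  rw [this]
  exact intCast_mem_intC m

variable {N : ℕ} [NeZero N]

theorem IsMN.exists_denominator {k : ℤ} {f : ℍ → ℂ} (hf : IsMN N k f)
    (hr : ∀ n, ∃ r : ℚ, (r : ℂ) = coeff n (qExpansion 1 f)) :
    ∃ M : ℕ, M ≠ 0 ∧ qExpansion 1 ((M : ℂ) • f) ∈ PSub intC := by
  have h1 : qExpansion 1 (f * DH N) = qExpansion 1 f * qExpansion 1 (DH N) :=
    qExp_mul hf.mem_QR DH_mem_QR
  have hS : qExpansion 1 f * qExpansion 1 (DH N) ∈ SpanZ := by
    rw [← h1, interpolation_fun hf, (qExp_UU (fun m hm ↦ cH_mem_QR hm) HN_mem_QR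
      (fun t ↦ (isM1_tr hf (isMN_HN (hN N)) t).mem_QR)).2]
    exact UU_mem_SpanZ (fun m hm ↦ cH_intC hm) (qExpansion_HN_mem (hN N))
      fun t ↦ (isM1_tr hf (isMN_HN (hN N)) t).mem_SpanZ
  obtain ⟨M, hM, hM'⟩ := bounded_of_mem_SpanZ hS (fun n ↦ by
    rw [coeff_mul]
    choose r hr using hr
    choose s hs using fun i ↦ mem_intC.mp (qExpansion_DH_mem (N := N) i)
    refine ⟨∑ p ∈ Finset.HasAntidiagonal.antidiagonal n, r p.1 * s p.2, ?_⟩
    push_cast
    exact Finset.sum_congr rfl fun p _ ↦ by rw [hr, hs])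
  refine ⟨M, hM, ?_⟩
  rw [qExp_smul hf.mem_QR]
  rw [← smul_mul_assoc] at hM'
  exact mem_PSub_of_mul qExpansion_DH_mem hM' ⟨1, intC.one_mem, by rw [coeff_zero_DH, one_mul]⟩ rfl

theorem IsMN.eq_zero {k : ℤ} {f : ℍ → ℂ} (hf : IsMN N k f)
    (h : ∀ n : ℕ, n ≤ (k * (Gamma0 N).index).toNat / 12 → (qExpansion 1 f).coeff n = 0) :
    f = 0 := by
  have := ModularForm.sturm_bound_Gamma0 N hf.form h
  have := congrArg (fun g : ModularForm _ k ↦ (g : ℍ → ℂ)) this
  simpa using this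

/-- the coefficient map on a space of forms -/
def coeffMap (V : Submodule ℂ (ℍ → ℂ)) (hV : ∀ f ∈ V, f ∈ QR 1) : V →ₗ[ℂ] (ℕ → ℂ) where
  toFun f n := (qExpansion 1 (f : ℍ → ℂ)).coeff n
  map_add' f g := by
    ext n
    rw [Submodule.coe_add, qExp_add (hV _ f.2) (hV _ g.2), map_add, Pi.add_apply]
  map_smul' c f := by
    ext n
    rw [Submodule.coe_smul, qExp_smul (hV _ f.2), PowerSeries.coeff_smul, Pi.smul_apply]
    rfl

theorem le_span_integral {k : ℤ} (V : Submodule ℂ (ℍ → ℂ)) (hV : ∀ f ∈ V, IsMN N k f)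
    (hconj : ∀ (σ : ℂ ≃+* ℂ), ∀ f ∈ V, ∃ g ∈ V, qExpansion 1 g = sig σ (qExpansion 1 f)) :
    V ≤ Submodule.span ℂ {g | g ∈ V ∧ qExpansion 1 g ∈ PSub intC} := by
  have hQ : ∀ f ∈ V, f ∈ QR 1 := fun f hf ↦ (hV f hf).mem_QR
  set L := coeffMap V hQ with hL
  have hinj : Injective L := by
    rw [injective_iff_map_eq_zero]
    intro f hf
    apply Subtype.ext
    apply eq_of_qExpansion_eq one_pos (hQ _ f.2) (QR 1).zero_mem
    rw [qExpansion_zero]
    ext n
    exact congrFun hf n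
  have hfd : FiniteDimensional ℂ V := by
    set B := (k * (Gamma0 N).index).toNat / 12
    let L' : V →ₗ[ℂ] (Fin (B + 1) → ℂ) := LinearMap.pi fun i ↦ (LinearMap.proj (i : ℕ)).comp L
    refine FiniteDimensional.of_injective L' ?_
    rw [injective_iff_map_eq_zero]
    intro f hf
    apply Subtype.ext
    refine (hV _ f.2).eq_zero fun n hn ↦ ?_
    exact congrFun hf ⟨n, Nat.lt_succ_iff.mpr hn⟩
  have hfd' : FiniteDimensional ℂ (LinearMap.range L) := inferInstance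
  have hrat := le_span_rational (LinearMap.range L) (by
    rintro σ _ ⟨f, rfl⟩
    obtain ⟨g, hg, hg'⟩ := hconj σ f f.2
    refine ⟨⟨g, hg⟩, ?_⟩
    ext n
    change (qExpansion 1 g).coeff n = σ ((qExpansion 1 (f : ℍ → ℂ)).coeff n)
    rw [hg', coeff_sig])
  have key : ∀ v ∈ Submodule.span ℂ {v | v ∈ LinearMap.range L ∧ ∀ n, ∃ r : ℚ, (r : ℂ) = v n},
      ∃ f : V, L f = v ∧ (f : ℍ → ℂ) ∈
        Submodule.span ℂ {g | g ∈ V ∧ qExpansion 1 g ∈ PSub intC} := by
    intro v hv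
    induction hv using Submodule.span_induction with
    | mem v hv =>
      obtain ⟨⟨f, rfl⟩, hr⟩ := hv
      obtain ⟨M, hM, hM'⟩ := (hV _ f.2).exists_denominator hr
      refine ⟨f, rfl, ?_⟩
      have h2 : (f : ℍ → ℂ) = (M : ℂ)⁻¹ • ((M : ℂ) • (f : ℍ → ℂ)) := by
        rw [smul_smul, inv_mul_cancel₀ (by exact_mod_cast hM), one_smul]
      rw [h2]
      exact Submodule.smul_mem _ _ (Submodule.subset_span ⟨V.smul_mem _ f.2, hM'⟩)
    | zero => exact ⟨0, map_zero L, Submodule.zero_mem _⟩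
    | add x y _ _ hx hy =>
      obtain ⟨f, rfl, hf⟩ := hx
      obtain ⟨g, rfl, hg⟩ := hy
      exact ⟨f + g, map_add L f g, Submodule.add_mem _ hf hg⟩
    | smul c x _ hx =>
      obtain ⟨f, rfl, hf⟩ := hx
      exact ⟨c • f, map_smul L c f, Submodule.smul_mem _ _ hf⟩
  intro f hf
  obtain ⟨f', hf', hf''⟩ := key (L ⟨f, hf⟩) (hrat ⟨_, rfl⟩)
  have := hinj hf'
  rw [this] at hf''
  exact hf''

variable (N) in
/-- the space of modular forms as functions -/
def MNsub (k : ℤ) : Submodule ℂ (ℍ → ℂ) where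
  carrier := {f | IsMN N k f}
  add_mem' hf hg := isMN_coe (hf.form + hg.form)
  zero_mem' := isMN_coe (0 : ModularForm (Gamma0 N) k)
  smul_mem' c _ hf := isMN_coe (c • hf.form)

variable (N) in
/-- the space of cusp forms as functions -/
def SNsub (k : ℤ) : Submodule ℂ (ℍ → ℂ) where
  carrier := {f | IsMN N k f ∧ IsCuspidal k f}
  add_mem' hf hg := ⟨isMN_coe (hf.1.cuspForm hf.2 + hg.1.cuspForm hg.2),
    isCuspidal_coe (hf.1.cuspForm hf.2 + hg.1.cuspForm hg.2)⟩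
  zero_mem' := ⟨isMN_coe (0 : CuspForm (Gamma0 N) k), isCuspidal_coe (0 : CuspForm (Gamma0 N) k)⟩
  smul_mem' c _ hf := ⟨isMN_coe (c • hf.1.cuspForm hf.2),
    isCuspidal_coe (c • hf.1.cuspForm hf.2)⟩

theorem isMN_mem_span_integral {k : ℤ} {f : ℍ → ℂ} (hf : IsMN N k f) :
    f ∈ Submodule.span ℂ {g | IsMN N k g ∧ qExpansion 1 g ∈ PSub intC} :=
  le_span_integral (MNsub N k) (fun _ h ↦ h) (fun σ f hf ↦ by
    obtain ⟨g, hg, hg', -⟩ := IsMN.exists_conj σ hf
    exact ⟨g, hg, hg'⟩) hf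

theorem cuspidal_mem_span_integral {k : ℤ} {f : ℍ → ℂ} (hf : IsMN N k f)
    (hf' : IsCuspidal k f) :
    f ∈ Submodule.span ℂ {g | (IsMN N k g ∧ IsCuspidal k g) ∧ qExpansion 1 g ∈ PSub intC} :=
  le_span_integral (SNsub N k) (fun _ h ↦ h.1) (fun σ f hf ↦ by
    obtain ⟨g, hg, hg', hg''⟩ := IsMN.exists_conj σ hf.1
    exact ⟨g, ⟨hg, hg'' hf.2⟩, hg'⟩) ⟨hf, hf'⟩

/-- **Integral structure** on cusp forms for `Γ₀(N)`, all weights. -/
theorem hasIntegralStructure (N : ℕ) [NeZero N] (k : ℤ) : CuspForm.HasIntegralStructure N k := by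
  rw [CuspForm.HasIntegralStructure, eq_top_iff]
  intro F _
  have h := cuspidal_mem_span_integral (isMN_coe F) (isCuspidal_coe F)
  have key : ∀ f ∈ Submodule.span ℂ {g | (IsMN N k g ∧ IsCuspidal k g) ∧
      qExpansion 1 g ∈ PSub intC}, ∃ G : CuspForm (Gamma0 N) k, ⇑G = f ∧
        G ∈ Submodule.span ℂ ((CuspForm.intLattice N k :
          Submodule ℤ (CuspForm (CongruenceSubgroup.Gamma0 N) k)) :
            Set (CuspForm (CongruenceSubgroup.Gamma0 N) k)) := by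
    intro f hf
    induction hf using Submodule.span_induction with
    | mem x hx =>
      refine ⟨hx.1.1.cuspForm hx.1.2, rfl, Submodule.subset_span (Submodule.subset_span ?_)⟩
      intro n
      obtain ⟨m, hm⟩ := mem_intC.mp (hx.2 n)
      exact ⟨m, hm.symm⟩
    | zero => exact ⟨0, rfl, Submodule.zero_mem _⟩
    | add x y _ _ hx hy =>
      obtain ⟨f, rfl, hf⟩ := hx
      obtain ⟨g, rfl, hg⟩ := hy
      exact ⟨f + g, rfl, Submodule.add_mem _ hf hg⟩
    | smul c x _ hx =>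
      obtain ⟨f, rfl, hf⟩ := hx
      exact ⟨c • f, rfl, Submodule.smul_mem _ _ hf⟩
  obtain ⟨G, hG, hG'⟩ := key F h
  rwa [DFunLike.coe_injective hG] at hG'

end

end Fermat.Agent.IntStr
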